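import Fermat.Agent.RR.RiemannFamily
import Fermat.Agent.S24.FF1

/-!
# Riemann's theorem for function fields over an algebraically closed field of characteristic zero

For `K` algebraically closed of characteristic `0` and `x : F` a generator (`S24.IsGen K x`:
`x` transcendental, `[F : K(x)]` finite), T24 provides `HasPrincipalDivisors`, `deg v = 1`, and
`∑_{v | ∞} ord_v x = -[F : K(x)]`.  We deduce the three standing instances of the RR package and
Riemann's theorem: there is `g` with `deg D + 1 - ℓ(D) ≤ g` for all `D`, with equality for
`deg D ≥ c`.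
-/

set_option autoImplicit false
set_option linter.unusedSectionVars false

noncomputable section

open AlgebraicCurve IntermediateField

namespace Fermat.Agent.RR.CharZero

open Fermat.Agent.S24 Fermat.Agent.RRh45 Fermat.Agent.RR.Inst

variable {K F : Type*} [Field K] [Field F] [Algebra K F]

theorem degree_eq_sum' (D : Divisor K F) :
    Divisor.degree D = D.sum fun v n => n * (v.deg : ℤ) := by
  simp [Divisor.degree, Finsupp.liftAddHom_apply]

theorem degree_eq_sum (hdeg : ∀ v : Place K F, v.deg = 1) (D : Divisor K F) :
    Divisor.degree D = D.sum fun _ n => n := by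
  rw [degree_eq_sum']
  apply Finsupp.sum_congr
  intro v _
  rw [hdeg v]
  simp

variable [IsAlgClosed K] [CharZero K]

/-- All residue fields are finite (equal to `K`). -/
theorem finiteResidues (x : F) [IsGen K x] : FiniteResidues K F :=
  ⟨fun v => Module.finite_of_finrank_pos (by
    have h : Module.finrank K v.ResidueField = 1 := PlaceB.deg_eq_one v x
    rw [h]; exact one_pos)⟩

/-- A generator has a pole. -/
theorem nonempty_place (x : F) [IsGen K x] : Nonempty (Place K F) := by
  by_contra hne
  rw [not_nonempty_iff] at hne
  have h := FF1.sum_placesOverInfty (K := K) x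
  have hz : ∑ᶠ v : placesOverInfty K x, (v : Place K F).ord x = 0 := by
    have : IsEmpty (placesOverInfty K x) := ⟨fun v => hne.false v.1⟩
    exact finsum_of_isEmpty _
  rw [hz] at h
  have hpos : 0 < Module.finrank K⟮x⟯ F := Module.finrank_pos
  omega

/-- `deg (x)_∞ = [F : K(x)]`. -/
theorem degree_poleDivisor (x : F) [IsGen K x] [HasPrincipalDivisors K F] :
    Divisor.degree (poleDivisor K x) = (Module.finrank K⟮x⟯ F : ℤ) := by
  have hdeg : ∀ v : Place K F, v.deg = 1 := fun v => PlaceB.deg_eq_one v x
  rw [degree_eq_sum hdeg]
  have h := FF1.sum_placesOverInfty (K := K) x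
  rw [finsum_set_coe_eq_finsum_mem (placesOverInfty K x) (f := fun v : Place K F => v.ord x)] at h
  have hsupp : ∀ v : Place K F, v ∈ (poleDivisor K x).support ↔ v ∈ placesOverInfty K x := by
    intro v
    rw [Finsupp.mem_support_iff, poleDivisor_apply]
    show _ ↔ v.ord x < 0
    constructor
    · intro hne
      by_contra hge
      exact hne (max_eq_right (by omega))
    · intro hlt
      have : max (-v.ord x) 0 = -v.ord x := max_eq_left (by omega)
      rw [this]; omega
  have hfin : (placesOverInfty K x).Finite := FF1.finite_placesOverInfty x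
  rw [finsum_mem_eq_finite_toFinset_sum _ hfin] at h
  have hset : hfin.toFinset = (poleDivisor K x).support := by
    ext v
    rw [Set.Finite.mem_toFinset, hsupp]
  rw [hset] at h
  unfold Finsupp.sum
  have : ∑ v ∈ (poleDivisor K x).support, (poleDivisor K x) v
      = -∑ v ∈ (poleDivisor K x).support, v.ord x := by
    rw [← Finset.sum_neg_distrib]
    refine Finset.sum_congr rfl fun v hv => ?_
    have hlt : v.ord x < 0 := (hsupp v).mp hv
    rw [poleDivisor_apply]
    exact max_eq_left (by omega)
  rw [this, h]
  ring

/-- **Riemann's theorem** over an algebraically closed field of characteristic zero. -/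
theorem riemann (x : F) [IsGen K x] :
    ∃ g : ℤ, (∀ D : Divisor K F,
        Divisor.degree D + 1 - Module.finrank K (riemannRochSpace D) ≤ g) ∧
      (∃ D₀ : Divisor K F,
        Divisor.degree D₀ + 1 - Module.finrank K (riemannRochSpace D₀) = g) ∧
      ∃ c : ℤ, ∀ D : Divisor K F, c ≤ Divisor.degree D →
        (Module.finrank K (riemannRochSpace D) : ℤ) = Divisor.degree D + 1 - g := by
  have : HasPrincipalDivisors K F := FF1.hasPrincipalDivisors x
  have : FiniteResidues K F := finiteResidues x
  have : Nonempty (Place K F) := nonempty_place x
  have hx : Transcendental K x := IsGen.transcendental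
  have hd := degree_poleDivisor (K := K) x
  have hpos : 0 < Module.finrank K⟮x⟯ F := Module.finrank_pos
  let b := Module.finBasis K⟮x⟯ F
  refine exists_genus_of_linearIndependent x hx ?_ (fun i => b i) b.linearIndependent ?_
  · rw [hd]; exact_mod_cast hpos
  · rw [hd]

end Fermat.Agent.RR.CharZero
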