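/-
RR brick, piece (R3) (helper66): local valuation toolkit for the Riemann bound.

`Vle v f n` means `v(f) ≥ -n` in additive notation (`f = 0` allowed), i.e.
`v.adicValuation f ≤ exp n`.  Core lemma: a `K`-combination `∑_a t^a ∑_b c a b • s b` of
"local basis" elements (`t` a uniformizer, `s b` lifts of a `K`-linearly independent family of the
residue field) with some `c a b ≠ 0`, `a < e`, has valuation `> exp (-e)`.
-/
import Mathlib
import Fermat.Prelude.Def_AlgebraicCurve_Repartitions
import Fermat.Agent.S24.PlaceBasic

set_option autoImplicit false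

open AlgebraicCurve WithZero

namespace Fermat.Agent.RR.Bound

variable {K F : Type*} [Field K] [Field F] [Algebra K F]

/-- `Vle v f n` : `v.adicValuation f ≤ exp n`, i.e. `ord_v f ≥ -n` or `f = 0`. -/
def Vle (v : Place K F) (f : F) (n : ℤ) : Prop := v.adicValuation f ≤ exp n

namespace Vle

variable {v : Place K F} {f g : F} {m n : ℤ}

theorem zero (v : Place K F) (n : ℤ) : Vle v 0 n := by
  unfold Vle; simp

theorem add (hf : Vle v f n) (hg : Vle v g n) : Vle v (f + g) n :=
  (Valuation.map_add _ _ _).trans (max_le hf hg)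

theorem neg (hf : Vle v f n) : Vle v (-f) n := by
  unfold Vle at *; rwa [Valuation.map_neg]

theorem sub (hf : Vle v f n) (hg : Vle v g n) : Vle v (f - g) n := by
  rw [sub_eq_add_neg]; exact hf.add hg.neg

theorem mono (hf : Vle v f m) (h : m ≤ n) : Vle v f n :=
  le_trans hf (exp_le_exp.mpr h)

theorem mul (hf : Vle v f m) (hg : Vle v g n) : Vle v (f * g) (m + n) := by
  unfold Vle at *
  rw [map_mul, exp_add]
  exact mul_le_mul' hf hg

theorem pow (hf : Vle v f m) (k : ℕ) : Vle v (f ^ k) (k * m) := by
  induction k with
  | zero => unfold Vle; simp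
  | succ k ih =>
    rw [pow_succ]
    have := ih.mul hf
    convert this using 1
    push_cast; ring

theorem sum {ι : Type*} (s : Finset ι) (φ : ι → F) (h : ∀ i ∈ s, Vle v (φ i) n) :
    Vle v (∑ i ∈ s, φ i) n := by
  classical
  induction s using Finset.induction_on with
  | empty => simpa using Vle.zero v n
  | insert a s ha ih =>
    rw [Finset.sum_insert ha]
    exact (h a (Finset.mem_insert_self a s)).add
      (ih fun i hi => h i (Finset.mem_insert_of_mem hi))

theorem algebraMap (v : Place K F) (a : K) : Vle v (algebraMap K F a) 0 := by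
  unfold Vle; rw [exp_zero]; exact v.adicValuation_algebraMap_le_one a

theorem smul (a : K) (hf : Vle v f n) : Vle v (a • f) n := by
  rw [Algebra.smul_def]
  have := (Vle.algebraMap v a).mul hf
  simpa using this

theorem of_mem (hf : f ∈ v.toValuationSubring) : Vle v f 0 := by
  unfold Vle; rw [exp_zero]; exact v.adicValuation_le_one_of_mem hf

theorem mem_of_vle_zero (hf : Vle v f 0) : f ∈ v.toValuationSubring := by
  unfold Vle at hf; rw [exp_zero] at hf
  exact (Fermat.Agent.S24.PlaceB.adicValuation_le_one_iff v f).1 hf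

theorem iff_ord : Vle v f n ↔ f = 0 ∨ -n ≤ v.ord f :=
  v.adicValuation_le_exp_iff

end Vle

/-- Existence of a uniformizer as an element of `F`. -/
theorem exists_uniformizer (v : Place K F) :
    ∃ t : F, t ∈ v.toValuationSubring ∧ v.adicValuation t = exp (-1 : ℤ) := by
  obtain ⟨π, hπ⟩ := IsDiscreteValuationRing.exists_irreducible v.toValuationSubring
  exact ⟨π, π.2, v.adicValuation_coe_irreducible hπ⟩

theorem adicValuation_pow_uniformizer {v : Place K F} {t : F}
    (ht : v.adicValuation t = exp (-1 : ℤ)) (a : ℕ) :
    v.adicValuation (t ^ a) = exp (-(a : ℤ)) := by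
  rw [map_pow, ht, ← exp_nsmul]
  congr 1
  simp

/-- A unit of the valuation ring has valuation one. -/
theorem adicValuation_eq_one_of_residue_ne_zero {v : Place K F} (σ : v.toValuationSubring)
    (h : IsLocalRing.residue v.toValuationSubring σ ≠ 0) : v.adicValuation (σ : F) = 1 := by
  rw [v.adicValuation_coe_eq_one_iff]
  by_contra hu
  exact h ((IsLocalRing.residue_eq_zero_iff σ).2 ((IsLocalRing.mem_maximalIdeal σ).2 hu))

end Fermat.Agent.RR.Bound
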