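/-
RR brick, piece (R3) (helper66): the core local independence lemma.
-/
import Fermat.Agent.RR.BoundLocal

set_option autoImplicit false

open AlgebraicCurve WithZero

namespace Fermat.Agent.RR.Bound

variable {K F : Type*} [Field K] [Field F] [Algebra K F]

theorem coe_sum_smul (v : Place K F) {ι : Type*} [Fintype ι] (s : ι → v.toValuationSubring)
    (c : ι → K) :
    ((∑ b, c b • s b : v.toValuationSubring) : F) =
      ∑ b, c b • ((s b : v.toValuationSubring) : F) := by
  rw [AddSubmonoidClass.coe_finsetSum]
  refine Finset.sum_congr rfl fun b _ => ?_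
  rw [Algebra.smul_def, Algebra.smul_def]; rfl

theorem residue_sum_smul (v : Place K F) {ι : Type*} [Fintype ι] (s : ι → v.toValuationSubring)
    (c : ι → K) :
    IsLocalRing.residue v.toValuationSubring (∑ b, c b • s b) =
      ∑ b, c b • IsLocalRing.residue v.toValuationSubring (s b) := by
  rw [map_sum]
  rfl

/-- For a lifted `K`-independent family, a nonzero combination is a unit, a zero one is zero. -/
theorem adicValuation_comb {v : Place K F} {ι : Type*} [Fintype ι] (s : ι → v.toValuationSubring)
    (hs : LinearIndependent K (fun b => IsLocalRing.residue v.toValuationSubring (s b)))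
    (c : ι → K) (hc : ∃ b, c b ≠ 0) :
    v.adicValuation (∑ b, c b • ((s b : v.toValuationSubring) : F)) = 1 := by
  rw [← coe_sum_smul]
  apply adicValuation_eq_one_of_residue_ne_zero
  rw [residue_sum_smul]
  intro h0
  obtain ⟨b, hb⟩ := hc
  exact hb (Fintype.linearIndependent_iff.1 hs c h0 b)

/-- **Core lemma**: `∑_{a<e} t^a ∑_b c a b • s b` has valuation `> exp (-e)` unless all `c a b`
vanish. -/
theorem core {v : Place K F} {t : F} (ht : v.adicValuation t = exp (-1 : ℤ))
    {ι : Type*} [Fintype ι] (s : ι → v.toValuationSubring)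
    (hs : LinearIndependent K (fun b => IsLocalRing.residue v.toValuationSubring (s b)))
    (e : ℕ) (c : Fin e → ι → K) (hc : ∃ a b, c a b ≠ 0) :
    ¬ Vle v (∑ a : Fin e, t ^ (a : ℕ) * ∑ b, c a b • ((s b : v.toValuationSubring) : F))
      (-(e : ℤ)) := by
  classical
  -- the set of rows with a nonzero coefficient
  set A : Finset (Fin e) := Finset.univ.filter fun a => ∃ b, c a b ≠ 0 with hA
  have hAne : A.Nonempty := by
    obtain ⟨a, b, hab⟩ := hc
    exact ⟨a, by simp [hA]; exact ⟨b, hab⟩⟩
  set a0 := A.min' hAne with ha0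
  have ha0A : a0 ∈ A := Finset.min'_mem A hAne
  have ha0c : ∃ b, c a0 b ≠ 0 := by
    have := ha0A
    simp only [hA, Finset.mem_filter, Finset.mem_univ, true_and] at this
    exact this
  -- valuation of the main term
  have hmain : v.adicValuation (t ^ (a0 : ℕ) * ∑ b, c a0 b • ((s b : v.toValuationSubring) : F))
      = exp (-((a0 : ℕ) : ℤ)) := by
    rw [map_mul, adicValuation_comb s hs (c a0) ha0c, mul_one, adicValuation_pow_uniformizer ht]
  -- the other terms are strictly smaller
  have hrest : ∀ a ∈ Finset.univ.erase a0,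
      Vle v (t ^ (a : ℕ) * ∑ b, c a b • ((s b : v.toValuationSubring) : F))
        (-(((a0 : ℕ) : ℤ) + 1)) := by
    intro a ha
    have hne : a ≠ a0 := (Finset.mem_erase.1 ha).1
    by_cases hrow : ∃ b, c a b ≠ 0
    · have haA : a ∈ A := by simp [hA]; exact hrow
      have hle : a0 ≤ a := Finset.min'_le A a haA
      have hlt : (a0 : ℕ) < (a : ℕ) := lt_of_le_of_ne hle (fun h => hne (Fin.ext h.symm))
      unfold Vle
      rw [map_mul, adicValuation_comb s hs (c a) hrow, mul_one, adicValuation_pow_uniformizer ht,
        exp_le_exp]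
      omega
    · simp only [not_exists, not_not] at hrow
      have : ∑ b, c a b • ((s b : v.toValuationSubring) : F) = 0 :=
        Finset.sum_eq_zero fun b _ => by rw [hrow b, zero_smul]
      rw [this, mul_zero]
      exact Vle.zero v _
  have hrest' := Vle.sum (v := v) (Finset.univ.erase a0)
    (fun a => t ^ (a : ℕ) * ∑ b, c a b • ((s b : v.toValuationSubring) : F)) hrest
  -- total valuation
  have hsplit := Finset.add_sum_erase Finset.univ
    (fun a : Fin e => t ^ (a : ℕ) * ∑ b, c a b • ((s b : v.toValuationSubring) : F))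
    (Finset.mem_univ a0)
  rw [← hsplit]
  have hlt : v.adicValuation (∑ a ∈ Finset.univ.erase a0,
      t ^ (a : ℕ) * ∑ b, c a b • ((s b : v.toValuationSubring) : F)) <
      v.adicValuation (t ^ (a0 : ℕ) * ∑ b, c a0 b • ((s b : v.toValuationSubring) : F)) := by
    rw [hmain]
    refine lt_of_le_of_lt hrest' ?_
    rw [exp_lt_exp]
    omega
  intro hV
  unfold Vle at hV
  rw [Valuation.map_add_eq_of_lt_left _ hlt, hmain, exp_le_exp] at hV
  have := a0.2
  omega

end Fermat.Agent.RR.Bound
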