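/-
RR brick, piece (R3) (helper66): global independence of the approximated local bases.
-/
import Fermat.Agent.RR.BoundCore

set_option autoImplicit false

open AlgebraicCurve WithZero

namespace Fermat.Agent.RR.Bound

variable {K F : Type*} [Field K] [Field F] [Algebra K F]

/-- Abstract independence lemma.  `J` indexes elements `u j` approximating local targets `g j` at
the place `pl j`, small at the other places of `S`; `y` is small at all places of `S`.  If the
targets at each place satisfy the conclusion of the core lemma, then the `y^m * u j` are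
`K`-linearly independent. -/
theorem indep_abstract {J : Type*} [Fintype J] [DecidableEq (Place K F)]
    (S : Finset (Place K F)) (pl : J → Place K F) (hpl : ∀ j, pl j ∈ S)
    (g u : J → F) (e : Place K F → ℕ) (y : F) (hy0 : y ≠ 0)
    (h1 : ∀ j, Vle (pl j) (u j - g j) (-(e (pl j) : ℤ)))
    (h2 : ∀ j, ∀ w ∈ S, w ≠ pl j → Vle w (u j) (-(e w : ℤ)))
    (h3 : ∀ j, Vle (pl j) (g j) 0)
    (h4 : ∀ v ∈ S, Vle v y (-(e v : ℤ)))
    (h5 : ∀ v ∈ S, ∀ c : J → K, (∃ j, pl j = v ∧ c j ≠ 0) →
      ¬ Vle v (∑ j ∈ Finset.univ.filter (fun j => pl j = v), c j • g j) (-(e v : ℤ)))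
    (M : ℕ) (c : ℕ → J → K)
    (hrel : (∑ m ∈ Finset.range M, y ^ m * ∑ j, c m j • u j) = 0) :
    ∀ m < M, ∀ j, c m j = 0 := by
  classical
  -- all `u j` and `y` are integral at all places of `S`
  have hu0 : ∀ j, ∀ v ∈ S, Vle v (u j) 0 := by
    intro j v hv
    by_cases hvj : v = pl j
    · subst hvj
      have := (h1 j).mono (show -(e (pl j) : ℤ) ≤ 0 by omega)
      have h := this.add (h3 j)
      simpa using h
    · exact (h2 j v hv hvj).mono (by omega)
  have hy1 : ∀ v ∈ S, Vle v y 0 := fun v hv => (h4 v hv).mono (by omega)
  induction M generalizing c with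
  | zero => intro m hm; omega
  | succ M ih =>
    rw [Finset.sum_range_succ'] at hrel
    simp only [pow_zero, one_mul, pow_succ] at hrel
    -- `rest`
    set rest : F := ∑ m ∈ Finset.range M, y ^ m * ∑ j, c (m + 1) j • u j with hrest
    have hrel' : (∑ j, c 0 j • u j) + y * rest = 0 := by
      rw [← hrel, hrest, Finset.mul_sum, add_comm]
      congr 1
      refine Finset.sum_congr rfl fun m _ => ?_
      ring
    -- step 1 : the constant coefficients vanish
    have hc0 : ∀ j, c 0 j = 0 := by
      by_contra hne
      push Not at hne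
      obtain ⟨j0, hj0⟩ := hne
      set v := pl j0 with hv
      have hvS : v ∈ S := hpl j0
      have hrestV : Vle v rest 0 := by
        refine Vle.sum _ _ fun m _ => ?_
        have hpw := (hy1 v hvS).pow m
        have hsum : Vle v (∑ j, c (m + 1) j • u j) 0 :=
          Vle.sum _ _ fun j _ => (hu0 j v hvS).smul _
        have := hpw.mul hsum
        simpa using this
      have hU0 : Vle v (∑ j, c 0 j • u j) (-(e v : ℤ)) := by
        have h : (∑ j, c 0 j • u j) = -(y * rest) := eq_neg_of_add_eq_zero_left hrel'
        rw [h]
        have := ((h4 v hvS).mul hrestV).neg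
        simpa using this
      -- split the sum
      have hsplit : (∑ j, c 0 j • u j) =
          (∑ j ∈ Finset.univ.filter (fun j => pl j = v), c 0 j • g j) +
          ((∑ j ∈ Finset.univ.filter (fun j => pl j = v), c 0 j • (u j - g j)) +
           (∑ j ∈ Finset.univ.filter (fun j => ¬ pl j = v), c 0 j • u j)) := by
        rw [← add_assoc, ← Finset.sum_add_distrib]
        rw [← Finset.sum_filter_add_sum_filter_not Finset.univ (fun j => pl j = v)]
        congr 1
        refine Finset.sum_congr rfl fun j _ => ?_
        rw [← smul_add]; congr 1; ring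
      have hA : Vle v (∑ j ∈ Finset.univ.filter (fun j => pl j = v), c 0 j • (u j - g j))
          (-(e v : ℤ)) := by
        refine Vle.sum _ _ fun j hj => ?_
        have hjv : pl j = v := (Finset.mem_filter.1 hj).2
        have := h1 j
        rw [hjv] at this
        exact this.smul _
      have hB : Vle v (∑ j ∈ Finset.univ.filter (fun j => ¬ pl j = v), c 0 j • u j)
          (-(e v : ℤ)) := by
        refine Vle.sum _ _ fun j hj => ?_
        have hjv : ¬ pl j = v := (Finset.mem_filter.1 hj).2
        exact (h2 j v hvS (fun h => hjv h.symm)).smul _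
      have hmain : Vle v (∑ j ∈ Finset.univ.filter (fun j => pl j = v), c 0 j • g j)
          (-(e v : ℤ)) := by
        have h := hU0.sub (hA.add hB)
        rw [hsplit] at h
        simpa using h
      exact h5 v hvS (c 0) ⟨j0, rfl, hj0⟩ hmain
    -- step 2 : divide by `y` and recurse
    have hU0 : (∑ j, c 0 j • u j) = 0 :=
      Finset.sum_eq_zero fun j _ => by rw [hc0 j, zero_smul]
    rw [hU0, zero_add] at hrel'
    have hrest0 : rest = 0 := by
      rcases mul_eq_zero.1 hrel' with h | h
      · exact absurd h hy0
      · exact h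
    have ih' := ih (fun m => c (m + 1)) hrest0
    intro m hm j
    rcases Nat.eq_zero_or_pos m with rfl | hpos
    · exact hc0 j
    · obtain ⟨m', rfl⟩ : ∃ m', m = m' + 1 := ⟨m - 1, by omega⟩
      exact ih' m' (by omega) j

end Fermat.Agent.RR.Bound
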