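/-
RR brick, piece (R3) (helper66): construction of the independent family from weak approximation.
-/
import Fermat.Agent.RR.BoundIndep

set_option autoImplicit false

open AlgebraicCurve WithZero

namespace Fermat.Agent.RR.Bound

variable {K F : Type*} [Field K] [Field F] [Algebra K F]

/-- Weak approximation hypothesis ('≥' form): simultaneous approximation of finitely many targets
at finitely many places to prescribed precision. -/
def WeakApprox (K F : Type*) [Field K] [Field F] [Algebra K F] : Prop :=
  ∀ (S : Finset (Place K F)) (y : Place K F → F) (n : Place K F → ℤ),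
    ∃ z : F, ∀ v ∈ S, Vle v (z - y v) (-(n v))

section Construction

variable (S : Finset (Place K F)) (e : Place K F → ℕ)

/-- The index type: a place of `S`, an exponent `a < e v` and a residue basis index. -/
abbrev Idx : Type _ := Σ v : {v : Place K F // v ∈ S}, Fin (e v.1) × Fin (v.1.deg)

theorem card_Idx : Fintype.card (Idx S e) = ∑ v ∈ S, e v * v.deg := by
  classical
  rw [Fintype.card_sigma]
  simp only [Fintype.card_prod, Fintype.card_fin]
  exact Finset.sum_coe_sort S (fun v => e v * v.deg)

end Construction

/-- Lifts of a residue-field basis. -/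
theorem exists_lifted_basis (v : Place K F) [Module.Finite K v.ResidueField] :
    ∃ s : Fin v.deg → v.toValuationSubring,
      LinearIndependent K (fun b => IsLocalRing.residue v.toValuationSubring (s b)) := by
  have hdeg : Module.finrank K v.ResidueField = v.deg := rfl
  let bas : Module.Basis (Fin v.deg) K v.ResidueField :=
    (Module.finBasis K v.ResidueField).reindex (finCongr hdeg)
  choose s hs using fun b => IsLocalRing.residue_surjective (R := v.toValuationSubring) (bas b)
  refine ⟨s, ?_⟩
  have : (fun b => IsLocalRing.residue v.toValuationSubring (s b)) = bas := funext hs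
  rw [this]
  exact bas.linearIndependent

/-- **Independent family** (Stichtenoth 1.3.3 / 1.4.11, lower-bound half).  Given weak
approximation, finitely many places `S` with finite residue fields, multiplicities `e v` and
`y ≠ 0` with `ord_v y ≥ e v` on `S`, there are `∑_{v ∈ S} e v * deg v` elements `u j`, integral at
all places of `S`, such that the `y^m * u j` are `K`-linearly independent. -/
theorem exists_indep_family (hWA : WeakApprox K F) (S : Finset (Place K F))
    (hfin : ∀ v ∈ S, Module.Finite K v.ResidueField)
    (e : Place K F → ℕ) (y : F) (hy0 : y ≠ 0) (hy : ∀ v ∈ S, Vle v y (-(e v : ℤ))) :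
    ∃ u : Fin (∑ v ∈ S, e v * v.deg) → F,
      (∀ j, ∀ v ∈ S, Vle v (u j) 0) ∧
      ∀ (M : ℕ) (c : ℕ → Fin (∑ v ∈ S, e v * v.deg) → K),
        (∑ m ∈ Finset.range M, y ^ m * ∑ j, c m j • u j) = 0 → ∀ m < M, ∀ j, c m j = 0 := by
  classical
  -- local data at each place of `S`
  have hloc : ∀ v : {v : Place K F // v ∈ S}, ∃ (t : F) (s : Fin v.1.deg → v.1.toValuationSubring),
      t ∈ v.1.toValuationSubring ∧ v.1.adicValuation t = exp (-1 : ℤ) ∧
      LinearIndependent K (fun b => IsLocalRing.residue v.1.toValuationSubring (s b)) := by
    intro v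
    have := hfin v.1 v.2
    obtain ⟨t, htm, ht⟩ := exists_uniformizer v.1
    obtain ⟨s, hs⟩ := exists_lifted_basis v.1
    exact ⟨t, s, htm, ht, hs⟩
  choose t s htm ht hs using hloc
  -- targets
  let g : Idx S e → F := fun j => t j.1 ^ (j.2.1 : ℕ) * ((s j.1 j.2.2 : j.1.1.toValuationSubring) : F)
  let pl : Idx S e → Place K F := fun j => j.1.1
  -- approximations
  have happ : ∀ j : Idx S e, ∃ z : F, ∀ w ∈ S,
      Vle w (z - (if w = pl j then g j else 0)) (-(e w : ℤ)) := fun j =>
    hWA S (fun w => if w = pl j then g j else 0) (fun w => (e w : ℤ))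
  choose u hu using happ
  have key := indep_abstract (J := Idx S e) S pl (fun j => j.1.2) g u e y hy0
    (fun j => by
      have := hu j (pl j) j.1.2
      simpa using this)
    (fun j w hw hne => by
      have := hu j w hw
      simpa [hne] using this)
    (fun j => Vle.of_mem (mul_mem (pow_mem (htm j.1) _) (s j.1 j.2.2).2))
    hy
    (by
      intro v hv c hc
      set v' : {v : Place K F // v ∈ S} := ⟨v, hv⟩ with hv'
      -- rewrite the filtered sum as a double sum
      have hsum : (∑ j ∈ Finset.univ.filter (fun j : Idx S e => pl j = v), c j • g j) =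
          ∑ a : Fin (e v), t v' ^ (a : ℕ) *
            ∑ b : Fin v.deg, c ⟨v', (a, b)⟩ • ((s v' b : v.toValuationSubring) : F) := by
        rw [Finset.sum_filter, Fintype.sum_sigma]
        rw [Finset.sum_eq_single v']
        · rw [Fintype.sum_prod_type]
          refine Finset.sum_congr rfl fun a _ => ?_
          rw [Finset.mul_sum]
          refine Finset.sum_congr rfl fun b _ => ?_
          simp only [pl, g, hv', if_true, mul_smul_comm]
        · intro w _ hw
          refine Finset.sum_eq_zero fun x _ => ?_
          have : ¬ (pl ⟨w, x⟩ = v) := fun h => hw (Subtype.ext h)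
          simp [this]
        · intro h; exact absurd (Finset.mem_univ _) h
      rw [hsum]
      refine core (ht v') (s v') (hs v') (e v) (fun a b => c ⟨v', (a, b)⟩) ?_
      obtain ⟨⟨⟨w, hw⟩, a, b⟩, hjv, hcj⟩ := hc
      have hwv : w = v := hjv
      subst hwv
      exact ⟨a, b, hcj⟩)
  -- transport to `Fin n`
  have hcard := card_Idx S e
  let ε : Idx S e ≃ Fin (∑ v ∈ S, e v * v.deg) := Fintype.equivFinOfCardEq hcard
  refine ⟨fun j => u (ε.symm j), ?_, ?_⟩
  · intro j v hv
    -- integrality of the `u j`
    set j' := ε.symm j
    by_cases hvj : v = pl j'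
    · have h1 := hu j' v hv
      rw [if_pos hvj] at h1
      have h3 : Vle v (g j') 0 := by
        rw [hvj]
        exact Vle.of_mem (mul_mem (pow_mem (htm j'.1) _) (s j'.1 j'.2.2).2)
      have := (h1.mono (show -(e v : ℤ) ≤ 0 by omega)).add h3
      simpa using this
    · have h1 := hu j' v hv
      rw [if_neg hvj, sub_zero] at h1
      exact h1.mono (by omega)
  · intro M c hrel m hm j
    have := key M (fun m j => c m (ε j)) (by
      rw [← hrel]
      refine Finset.sum_congr rfl fun m _ => ?_
      congr 1
      exact Equiv.sum_comp ε (fun j => c m j • u (ε.symm j)) |>.symm ▸ by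
        simp) m hm (ε.symm j)
    simpa using this

end Fermat.Agent.RR.Bound
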