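/-
RR (R3), bridge (helper66): from the polynomial independence produced by
`exists_indep_family` to linear independence over `K⟮y⟯`, and the inequality
`∑_{v ∈ S} ord_v(y) deg v ≤ [F : K(y)]` (Stichtenoth 1.3.3), with finiteness of zeros and poles.
No `HasPrincipalDivisors` is used anywhere in this file.
-/
import Mathlib
import Fermat.Prelude.Def_AlgebraicCurve_Repartitions
import Fermat.Agent.RR.BoundFamily
import Fermat.Agent.RR_helper45.Finite
import Fermat.Agent.RR_helper67.WeakApprox

set_option autoImplicit false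

noncomputable section

open AlgebraicCurve WithZero IntermediateField Polynomial

namespace Fermat.Agent.RR.Bound

open Fermat.Agent.RRh45

variable {K F : Type*} [Field K] [Field F] [Algebra K F]

/-- Elements of `K⟮y⟯` are quotients of polynomial values with nonzero denominator. -/
theorem exists_aeval_div (y : F) (a : K⟮y⟯) :
    ∃ r s : K[X], aeval y s ≠ 0 ∧ (a : F) = aeval y r / aeval y s := by
  obtain ⟨r, s, hrs⟩ := (mem_adjoin_simple_iff K (a : F)).mp a.2
  by_cases hs : aeval y s = 0
  · refine ⟨0, 1, by simp, ?_⟩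
    rw [hrs, hs]; simp
  · exact ⟨r, s, hs, hrs⟩

/-- **Polynomial independence implies independence over `K⟮y⟯`.** -/
theorem linearIndependent_adjoin_of_forall {n : ℕ} (y : F) (u : Fin n → F)
    (h : ∀ (M : ℕ) (c : ℕ → Fin n → K),
      (∑ m ∈ Finset.range M, y ^ m * ∑ j, c m j • u j) = 0 → ∀ m < M, ∀ j, c m j = 0) :
    LinearIndependent K⟮y⟯ u := by
  classical
  rw [Fintype.linearIndependent_iff]
  intro a ha j₀
  choose r s hs hrs using fun j => exists_aeval_div y (a j)
  -- common denominator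
  set Q : F := ∏ j, aeval y (s j) with hQ
  have hQ0 : Q ≠ 0 := Finset.prod_ne_zero_iff.mpr fun j _ => hs j
  set P : Fin n → K[X] := fun j => r j * ∏ i ∈ Finset.univ.erase j, s i with hP
  have hPa : ∀ j, aeval y (P j) = (a j : F) * Q := by
    intro j
    have hprod : Q = aeval y (s j) * ∏ i ∈ Finset.univ.erase j, aeval y (s i) :=
      (Finset.mul_prod_erase Finset.univ (fun i => aeval y (s i)) (Finset.mem_univ j)).symm
    rw [hP]
    simp only [map_mul, map_prod]
    rw [hrs j, hprod]
    field_simp [hs j]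
  -- the relation with polynomial coefficients
  have hrel : ∑ j, aeval y (P j) * u j = 0 := by
    have h1 : ∑ j, (a j : F) * u j = 0 := by
      have := ha
      simpa [IntermediateField.smul_def] using this
    calc ∑ j, aeval y (P j) * u j = Q * ∑ j, (a j : F) * u j := by
          rw [Finset.mul_sum]
          refine Finset.sum_congr rfl fun j _ => ?_
          rw [hPa]; ring
      _ = 0 := by rw [h1, mul_zero]
  set M : ℕ := (Finset.univ.sup fun j => (P j).natDegree) + 1 with hM
  have hdeg : ∀ j, (P j).natDegree < M := fun j =>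
    Nat.lt_succ_of_le (Finset.le_sup (f := fun j => (P j).natDegree) (Finset.mem_univ j))
  have hsum : (∑ m ∈ Finset.range M, y ^ m * ∑ j, (P j).coeff m • u j) = 0 := by
    rw [← hrel]
    have : ∀ j, aeval y (P j) * u j = ∑ m ∈ Finset.range M, y ^ m * ((P j).coeff m • u j) := by
      intro j
      rw [aeval_eq_sum_range' (hdeg j), Finset.sum_mul]
      refine Finset.sum_congr rfl fun m _ => ?_
      rw [smul_mul_assoc, mul_smul_comm]
    simp only [this]
    rw [Finset.sum_comm]
    refine Finset.sum_congr rfl fun m _ => ?_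
    rw [Finset.mul_sum]
  have hzero := h M (fun m j => (P j).coeff m) hsum
  have hP0 : P j₀ = 0 := by
    ext m
    rw [coeff_zero]
    by_cases hm : m < M
    · exact hzero m hm j₀
    · exact coeff_eq_zero_of_natDegree_lt (lt_of_lt_of_le (hdeg j₀) (not_lt.mp hm))
  have h2 : (a j₀ : F) * Q = 0 := by rw [← hPa, hP0, map_zero]
  have h3 : (a j₀ : F) = 0 := (mul_eq_zero.mp h2).resolve_right hQ0
  exact Subtype.ext h3

/-- `∑_{v ∈ S} e_v deg v ≤ [F : K(y)]` when `ord_v y ≥ e_v` on `S`. -/
theorem sum_mul_deg_le_finrank (S : Finset (Place K F))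
    (hfin : ∀ v ∈ S, Module.Finite K v.ResidueField) (e : Place K F → ℕ) (y : F) (hy0 : y ≠ 0)
    (hy : ∀ v ∈ S, Vle v y (-(e v : ℤ))) [FiniteDimensional K⟮y⟯ F] :
    ∑ v ∈ S, e v * v.deg ≤ Module.finrank K⟮y⟯ F := by
  obtain ⟨u, -, hind⟩ := exists_indep_family (K := K) (F := F)
    (fun S y n => Fermat.Agent.RRh67.exists_approx S y n) S hfin e y hy0 hy
  have hli := linearIndependent_adjoin_of_forall y u hind
  simpa using hli.fintype_card_le_finrank

/-- `∑_{v ∈ S} ord_v(y) deg v ≤ [F : K(y)]` for any finite set `S` of zeros of `y`. -/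
theorem sum_ord_mul_deg_le_finrank (S : Finset (Place K F))
    (hfin : ∀ v ∈ S, Module.Finite K v.ResidueField) (y : F) (hy0 : y ≠ 0)
    (hpos : ∀ v ∈ S, 0 < v.ord y) [FiniteDimensional K⟮y⟯ F] :
    ∑ v ∈ S, v.ord y * (v.deg : ℤ) ≤ (Module.finrank K⟮y⟯ F : ℤ) := by
  have hy : ∀ v ∈ S, Vle v y (-(((v.ord y).toNat : ℕ) : ℤ)) := by
    intro v hv
    rw [Vle.iff_ord]
    right
    rw [neg_neg, Int.toNat_of_nonneg (hpos v hv).le]
  have h := sum_mul_deg_le_finrank S hfin (fun v => (v.ord y).toNat) y hy0 hy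
  have h' : ((∑ v ∈ S, (v.ord y).toNat * v.deg : ℕ) : ℤ) ≤ (Module.finrank K⟮y⟯ F : ℤ) := by
    exact_mod_cast h
  refine le_trans (le_of_eq ?_) h'
  push_cast
  refine Finset.sum_congr rfl fun v hv => ?_
  rw [Int.toNat_of_nonneg (hpos v hv).le]

/-- A nonzero function with `[F : K(y)] < ∞` has finitely many zeros. -/
theorem finite_zeros [FiniteResidues K F] (y : F) (hy0 : y ≠ 0) [FiniteDimensional K⟮y⟯ F] :
    {v : Place K F | 0 < v.ord y}.Finite := by
  classical
  by_contra hinf
  obtain ⟨S, hS, hcard⟩ :=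
    Set.Infinite.exists_subset_card_eq hinf (Module.finrank K⟮y⟯ F + 1)
  have hpos : ∀ v ∈ S, 0 < v.ord y := fun v hv => hS hv
  have h1 := sum_ord_mul_deg_le_finrank S (fun v _ => inferInstance) y hy0 hpos
  have h2 : (S.card : ℤ) ≤ ∑ v ∈ S, v.ord y * (v.deg : ℤ) := by
    rw [Finset.card_eq_sum_ones]
    push_cast
    refine Finset.sum_le_sum fun v hv => ?_
    have hd : (1 : ℤ) ≤ v.deg := by exact_mod_cast deg_pos v
    have ho : (1 : ℤ) ≤ v.ord y := hpos v hv
    nlinarith
  rw [hcard] at h2
  push_cast at h2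
  linarith

/-- A nonzero function with `[F : K(y⁻¹)] < ∞` has finitely many poles. -/
theorem finite_poles [FiniteResidues K F] (y : F) (hy0 : y ≠ 0) [FiniteDimensional K⟮y⁻¹⟯ F] :
    {v : Place K F | v.ord y < 0}.Finite := by
  have := finite_zeros (K := K) y⁻¹ (inv_ne_zero hy0)
  refine this.subset fun v hv => ?_
  have hv' : v.ord y < 0 := hv
  show 0 < v.ord y⁻¹
  rw [Place.ord_inv]
  linarith

end Fermat.Agent.RR.Bound
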