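/-
RR (R3), part 5 (helper66): the Riemann inequality for the prelude function-field API.

* `divOf K f`         : the divisor of `f` (chosen through `HasPrincipalDivisors`), degree `0`;
* `poleDiv K x`       : the pole divisor `(x)_∞ = (-div x) ⊔ 0`;
* `linearIndependent_pow_mul` : `[F : K(x)] ≥ deg (x)_∞` in the form: there are
  `u : Fin (deg (x)_∞) → F` with `(i, j) ↦ x ^ i * u j` linearly independent over `K`;
* `card_le_finrank`   : `(l + 1) * deg (x)_∞ ≤ l(l • (x)_∞ + C)`;
* `riemann_bound`     : `∃ γ, ∀ D, deg D - l(D) ≤ γ`.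
-/
import Mathlib
import Fermat.Prelude.Def_AlgebraicCurve_Repartitions
import Fermat.Agent.RR.BoundFamily
import Fermat.Agent.RR_helper45.Finite
import Fermat.Agent.RR_helper67.WeakApprox

set_option autoImplicit false

noncomputable section

open AlgebraicCurve WithZero

namespace Fermat.Agent.RR.Bound

open Fermat.Agent.RRh45

variable {K F : Type*} [Field K] [Field F] [Algebra K F]

/-- Weak approximation holds (helper67). -/
theorem weakApprox : WeakApprox K F := fun S y n =>
  Fermat.Agent.RRh67.exists_approx S y n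

/-! ### The divisor of a function -/

section DivOf

variable [HasPrincipalDivisors K F]

variable (K) in
/-- The divisor of `f` (and `0` for `f = 0`). -/
def divOf (f : F) : Divisor K F := by
  classical
  exact if h : f = 0 then 0 else (HasPrincipalDivisors.exists_divisor (K := K) f h).choose

@[simp]
theorem divOf_zero : divOf K (0 : F) = 0 := by
  unfold divOf; simp

theorem divOf_apply {f : F} (hf : f ≠ 0) (v : Place K F) : divOf K f v = v.ord f := by
  unfold divOf
  rw [dif_neg hf]
  exact (HasPrincipalDivisors.exists_divisor (K := K) f hf).choose_spec.1 v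

theorem degree_divOf (f : F) : Divisor.degree (divOf K f) = 0 := by
  by_cases hf : f = 0
  · subst hf; simp
  · unfold divOf
    rw [dif_neg hf]
    exact (HasPrincipalDivisors.exists_divisor (K := K) f hf).choose_spec.2

variable (K) in
/-- The pole divisor `(x)_∞`. -/
def poleDiv (x : F) : Divisor K F := (-(divOf K x)) ⊔ 0

theorem poleDiv_nonneg (x : F) : 0 ≤ poleDiv K x := le_sup_right

@[simp]
theorem poleDiv_zero : poleDiv K (0 : F) = 0 := by
  unfold poleDiv; simp

theorem poleDiv_apply {x : F} (hx : x ≠ 0) (v : Place K F) :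
    poleDiv K x v = max (-(v.ord x)) 0 := by
  unfold poleDiv
  rw [Finsupp.sup_apply, Finsupp.neg_apply, divOf_apply hx]
  rfl

theorem poleDiv_apply_nonneg (x : F) (v : Place K F) : 0 ≤ poleDiv K x v :=
  Finsupp.le_def.mp (poleDiv_nonneg x) v

theorem vle_poleDiv (x : F) (v : Place K F) : Vle v x (poleDiv K x v) := by
  by_cases hx : x = 0
  · subst hx; exact Vle.zero v _
  · rw [Vle.iff_ord, poleDiv_apply hx]
    right
    have := le_max_left (-(v.ord x)) 0
    linarith

theorem mem_riemannRochSpace_poleDiv (x : F) : x ∈ riemannRochSpace (poleDiv K x) :=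
  fun v => vle_poleDiv x v

omit [HasPrincipalDivisors K F] in
theorem mem_riemannRochSpace_iff_vle {D : Divisor K F} {f : F} :
    f ∈ riemannRochSpace D ↔ ∀ v : Place K F, Vle v f (D v) := Iff.rfl

/-- `x ^ i * u ∈ L(l • (x)_∞ + C)` for `i ≤ l` and `u ∈ L(C)`. -/
theorem pow_mul_mem (x : F) {C : Divisor K F} {u : F} (hu : u ∈ riemannRochSpace C)
    {i l : ℕ} (hil : i ≤ l) : x ^ i * u ∈ riemannRochSpace (l • poleDiv K x + C) := by
  intro v
  show Vle v (x ^ i * u) ((l • poleDiv K x + C) v)
  have h1 : Vle v (x ^ i) ((i : ℤ) * poleDiv K x v) := (vle_poleDiv x v).pow i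
  have h2 : Vle v (x ^ i) ((l : ℤ) * poleDiv K x v) := by
    refine h1.mono ?_
    have : (i : ℤ) ≤ l := by exact_mod_cast hil
    exact mul_le_mul_of_nonneg_right this (poleDiv_apply_nonneg x v)
  have h3 := h2.mul (hu v)
  have : (l • poleDiv K x + C) v = (l : ℤ) * poleDiv K x v + C v := by
    rw [Finsupp.add_apply, Finsupp.smul_apply, nsmul_eq_mul]
  rw [this]
  exact h3

/-- The degree of the pole divisor as a natural number. -/
def poleDeg (x : F) : ℕ := ∑ v ∈ (poleDiv K x).support, (poleDiv K x v).toNat * v.deg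

omit [HasPrincipalDivisors K F] in
theorem degree_eq_sum (D : Divisor K F) :
    Divisor.degree D = ∑ v ∈ D.support, D v * (v.deg : ℤ) := by
  unfold Divisor.degree
  rw [Finsupp.liftAddHom_apply]
  rfl

theorem degree_poleDiv (x : F) : Divisor.degree (poleDiv K x) = (poleDeg (K := K) x : ℤ) := by
  rw [degree_eq_sum, poleDeg]
  push_cast
  refine Finset.sum_congr rfl fun v _ => ?_
  rw [Int.toNat_of_nonneg (poleDiv_apply_nonneg x v)]

/-! ### `[F : K(x)] ≥ deg (x)_∞` -/

/-- At a pole `v` of `x` the inverse `x⁻¹` vanishes to order `(x)_∞ (v)`. -/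
theorem vle_inv_of_mem_support {x : F} (hx : x ≠ 0) {v : Place K F}
    (hv : v ∈ (poleDiv K x).support) :
    Vle v x⁻¹ (-(((poleDiv K x v).toNat : ℕ) : ℤ)) := by
  rw [Vle.iff_ord]
  right
  rw [Finsupp.mem_support_iff, poleDiv_apply hx] at hv
  rw [neg_neg, Place.ord_inv, Int.toNat_of_nonneg (poleDiv_apply_nonneg x v), poleDiv_apply hx]
  rcases le_total (-(v.ord x)) 0 with h | h
  · exact absurd (max_eq_right h) hv
  · rw [max_eq_left h]

/-- **Independence at the poles**: there are `poleDeg x` elements `u j`, integral at all poles of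
`x`, such that the `x ^ i * u j` are linearly independent over `K`. -/
theorem exists_family [FiniteResidues K F] {x : F} (hx : x ≠ 0) :
    ∃ u : Fin (poleDeg (K := K) x) → F,
      (∀ j, ∀ v ∈ (poleDiv K x).support, Vle v (u j) 0) ∧
      ∀ l : ℕ, LinearIndependent K
        (fun p : Fin (l + 1) × Fin (poleDeg (K := K) x) => x ^ (p.1 : ℕ) * u p.2) := by
  classical
  obtain ⟨u, hu, hind⟩ := exists_indep_family (K := K) (F := F) weakApprox (poleDiv K x).support
    (fun v _ => inferInstance) (fun v => (poleDiv K x v).toNat) x⁻¹ (inv_ne_zero hx)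
    (fun v hv => vle_inv_of_mem_support hx hv)
  refine ⟨u, hu, fun l => ?_⟩
  rw [Fintype.linearIndependent_iff]
  intro g hg p
  -- coefficients indexed by `ℕ`
  set G : ℕ → Fin (poleDeg (K := K) x) → K :=
    fun i j => if h : i < l + 1 then g (⟨i, h⟩, j) else 0 with hG
  have hGg : ∀ (i : Fin (l + 1)) j, G i j = g (i, j) := by
    intro i j
    simp only [hG, dif_pos i.2]
  have hsum : ∑ i ∈ Finset.range (l + 1), x ^ i * ∑ j, G i j • u j = 0 := by
    rw [← Fin.sum_univ_eq_sum_range (fun i => x ^ i * ∑ j, G i j • u j) (l + 1)]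
    rw [← hg, Fintype.sum_prod_type]
    refine Finset.sum_congr rfl fun i _ => ?_
    rw [Finset.mul_sum]
    refine Finset.sum_congr rfl fun j _ => ?_
    rw [hGg, mul_smul_comm]
  have hrel : ∑ m ∈ Finset.range (l + 1), x⁻¹ ^ m * ∑ j, G (l - m) j • u j = 0 := by
    have h1 : ∑ m ∈ Finset.range (l + 1), x⁻¹ ^ m * ∑ j, G (l - m) j • u j
        = ∑ i ∈ Finset.range (l + 1), x⁻¹ ^ (l - i) * ∑ j, G i j • u j := by
      rw [← Finset.sum_range_reflect (fun i => x⁻¹ ^ (l - i) * ∑ j, G i j • u j) (l + 1)]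
      refine Finset.sum_congr rfl fun m hm => ?_
      have hm' : m ≤ l := Nat.lt_succ_iff.mp (Finset.mem_range.mp hm)
      have e1 : l + 1 - 1 - m = l - m := by omega
      have e2 : l - (l - m) = m := by omega
      rw [e1, e2]
    rw [h1]
    have h2 : ∀ i ∈ Finset.range (l + 1), x⁻¹ ^ (l - i) * ∑ j, G i j • u j
        = x⁻¹ ^ l * (x ^ i * ∑ j, G i j • u j) := by
      intro i hi
      have hi' : i ≤ l := Nat.lt_succ_iff.mp (Finset.mem_range.mp hi)
      have : x⁻¹ ^ (l - i) = x⁻¹ ^ l * x ^ i := by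
        rw [inv_pow, inv_pow, pow_sub₀ x hx hi', mul_inv, inv_inv, mul_comm]
      rw [this, mul_assoc]
    rw [Finset.sum_congr rfl h2, ← Finset.mul_sum, hsum, mul_zero]
  have hzero := hind (l + 1) (fun m j => G (l - m) j) hrel
  have hp : (p.1 : ℕ) ≤ l := Nat.lt_succ_iff.mp p.1.2
  have := hzero (l - p.1) (by omega) p.2
  have e : l - (l - (p.1 : ℕ)) = p.1 := by omega
  rw [e, hGg] at this
  exact this

end DivOf

/-! ### Translation by a principal divisor -/

section Translate

variable [HasPrincipalDivisors K F]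

theorem divOf_inv (z : F) : divOf K z⁻¹ = -divOf K z := by
  by_cases hz : z = 0
  · subst hz; simp
  · ext v
    rw [Finsupp.neg_apply, divOf_apply (inv_ne_zero hz), divOf_apply hz, Place.ord_inv]

omit [HasPrincipalDivisors K F] in
theorem vle_inv_ord (z : F) (v : Place K F) : Vle v z⁻¹ (v.ord z) := by
  rw [Vle.iff_ord, Place.ord_inv]
  exact Or.inr le_rfl

theorem mul_inv_mem {A : Divisor K F} {z g : F} (hz : z ≠ 0)
    (hg : g ∈ riemannRochSpace (A - divOf K z)) : g * z⁻¹ ∈ riemannRochSpace A := by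
  intro v
  show Vle v (g * z⁻¹) (A v)
  have h1 : Vle v g (A v - v.ord z) := by
    have := hg v
    rw [Finsupp.sub_apply, divOf_apply hz] at this
    exact this
  have h2 := h1.mul (vle_inv_ord z v)
  rwa [sub_add_cancel] at h2

/-- Multiplication by `z⁻¹` as a linear map `L(A - div z) → L(A)`. -/
def mulInvMap (A : Divisor K F) {z : F} (hz : z ≠ 0) :
    riemannRochSpace (A - divOf K z) →ₗ[K] riemannRochSpace A where
  toFun g := ⟨(g : F) * z⁻¹, mul_inv_mem hz g.2⟩
  map_add' g h := by
    ext
    simp [add_mul]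
  map_smul' c g := by
    ext
    simp

theorem mulInvMap_injective (A : Divisor K F) {z : F} (hz : z ≠ 0) :
    Function.Injective (mulInvMap A hz) := by
  intro g h hgh
  have := congrArg (fun w : riemannRochSpace A => (w : F)) hgh
  simp only [mulInvMap, LinearMap.coe_mk, AddHom.coe_mk] at this
  exact Subtype.ext (mul_right_cancel₀ (inv_ne_zero hz) this)

theorem finrank_sub_divOf_le (A : Divisor K F) {z : F} (hz : z ≠ 0)
    [Module.Finite K (riemannRochSpace A)] :
    Module.finrank K (riemannRochSpace (A - divOf K z)) ≤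
      Module.finrank K (riemannRochSpace A) :=
  LinearMap.finrank_le_finrank_of_injective (mulInvMap_injective A hz)

end Translate

/-! ### The Riemann inequality -/

section Riemann

variable [FiniteResidues K F] [HasPrincipalDivisors K F]

omit [FiniteResidues K F] in
/-- An effective divisor `C` with all `u j ∈ L(C)`. -/
theorem exists_common_divisor {ι : Type*} [Fintype ι] (u : ι → F) :
    ∃ C : Divisor K F, 0 ≤ C ∧ ∀ j, u j ∈ riemannRochSpace C := by
  classical
  refine ⟨∑ j, poleDiv K (u j), Finset.sum_nonneg fun j _ => poleDiv_nonneg _, fun j => ?_⟩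
  exact riemannRochSpace_mono
    (Finset.single_le_sum (f := fun i => poleDiv K (u i)) (fun i _ => poleDiv_nonneg (u i))
      (Finset.mem_univ j))
    (mem_riemannRochSpace_poleDiv (u j))

/-- `(l + 1) * deg (x)_∞ ≤ l(l • (x)_∞ + C)` for a suitable effective `C` not depending on `l`. -/
theorem exists_divisor_card_le [Nonempty (Place K F)] {x : F} (hx : x ≠ 0) :
    ∃ C : Divisor K F, 0 ≤ C ∧ ∀ l : ℕ,
      (l + 1) * poleDeg (K := K) x ≤
        Module.finrank K (riemannRochSpace (l • poleDiv K x + C)) := by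
  obtain ⟨u, _, hind⟩ := exists_family (K := K) hx
  obtain ⟨C, hC, hmem⟩ := exists_common_divisor (K := K) u
  refine ⟨C, hC, fun l => ?_⟩
  have hmem' : ∀ p : Fin (l + 1) × Fin (poleDeg (K := K) x),
      x ^ (p.1 : ℕ) * u p.2 ∈ riemannRochSpace (l • poleDiv K x + C) :=
    fun p => pow_mul_mem x (hmem p.2) (Nat.lt_succ_iff.mp p.1.2)
  have hli : LinearIndependent K (fun p : Fin (l + 1) × Fin (poleDeg (K := K) x) =>
      (⟨x ^ (p.1 : ℕ) * u p.2, hmem' p⟩ : riemannRochSpace (l • poleDiv K x + C))) := by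
    apply LinearIndependent.of_comp (riemannRochSpace (l • poleDiv K x + C)).subtype
    exact hind l
  have := hli.fintype_card_le_finrank
  simpa [Fintype.card_prod] using this

/-- `(l + 1) * deg (x)_∞ ≤ l(l • (x)_∞) + c` for a constant `c` not depending on `l`. -/
theorem exists_const_le_finrank [Nonempty (Place K F)] {x : F} (hx : x ≠ 0) :
    ∃ c : ℤ, ∀ l : ℕ, ((l : ℤ) + 1) * (poleDeg (K := K) x : ℤ) ≤
      (Module.finrank K (riemannRochSpace (l • poleDiv K x)) : ℤ) + c := by
  obtain ⟨C, hC, hcard⟩ := exists_divisor_card_le (K := K) hx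
  refine ⟨Divisor.degree C, fun l => ?_⟩
  have h1 : l • poleDiv K x ≤ l • poleDiv K x + C := le_add_of_nonneg_right hC
  have h2 := finrank_le_of_le h1
  rw [map_add, add_sub_cancel_left] at h2
  have h3 : (((l + 1) * poleDeg (K := K) x : ℕ) : ℤ) ≤
      (Module.finrank K (riemannRochSpace (l • poleDiv K x + C)) : ℤ) := by
    exact_mod_cast hcard l
  push_cast at h3
  linarith

omit [HasPrincipalDivisors K F] [FiniteResidues K F] in
theorem uniformizer_ord (v₀ : Place K F) {t : F} (ht : v₀.adicValuation t = exp (-1 : ℤ)) :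
    v₀.ord t = 1 := by
  unfold Place.ord
  rw [ht, log_exp]
  ring

/-- Any place is a pole of some function. -/
theorem exists_poleDeg_pos (v₀ : Place K F) : ∃ x : F, x ≠ 0 ∧ 0 < poleDeg (K := K) x := by
  obtain ⟨t, -, ht⟩ := exists_uniformizer v₀
  have ht0 : t ≠ 0 := by
    rintro rfl
    rw [map_zero] at ht
    exact exp_ne_zero ht.symm
  refine ⟨t⁻¹, inv_ne_zero ht0, ?_⟩
  have hval : poleDiv K t⁻¹ v₀ = 1 := by
    rw [poleDiv_apply (inv_ne_zero ht0), Place.ord_inv, neg_neg, uniformizer_ord v₀ ht]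
    rfl
  have hmem : v₀ ∈ (poleDiv K t⁻¹).support := by
    rw [Finsupp.mem_support_iff, hval]; exact one_ne_zero
  have hle := Finset.single_le_sum (f := fun v => (poleDiv K t⁻¹ v).toNat * v.deg)
    (fun i _ => Nat.zero_le _) hmem
  have h1 : (poleDiv K t⁻¹ v₀).toNat * v₀.deg = v₀.deg := by
    rw [hval]; simp
  have hpos := deg_pos v₀
  unfold poleDeg
  omega

theorem riemann_bound_aux [Nonempty (Place K F)] :
    ∃ γ : ℤ, ∀ D : Divisor K F,
      Divisor.degree D - (Module.finrank K (riemannRochSpace D) : ℤ) ≤ γ := by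
  obtain ⟨v₀⟩ := ‹Nonempty (Place K F)›
  have : Nonempty (Place K F) := ⟨v₀⟩
  obtain ⟨x, hx, hn⟩ := exists_poleDeg_pos (K := K) v₀
  obtain ⟨c, hc⟩ := exists_const_le_finrank (K := K) hx
  set n : ℕ := poleDeg (K := K) x with hn_def
  set B : Divisor K F := poleDiv K x with hB
  have hdegB : ∀ l : ℕ, Divisor.degree (l • B) = (l : ℤ) * n := by
    intro l
    rw [map_nsmul, nsmul_eq_mul, hB, degree_poleDiv]
  refine ⟨c - n, fun D => ?_⟩
  -- reduce to `A1 = D ⊔ 0`
  set A1 : Divisor K F := D ⊔ 0 with hA1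
  have hDA1 : D ≤ A1 := le_sup_left
  have hA1nn : 0 ≤ A1 := le_sup_right
  have ha : 0 ≤ Divisor.degree A1 := degree_nonneg_of_nonneg hA1nn
  have hstep1 := finrank_le_of_le hDA1
  -- choose `l`
  set l : ℕ := (c + Divisor.degree A1).toNat with hl
  have hl' : c + Divisor.degree A1 ≤ (l : ℤ) := Int.self_le_toNat _
  have hn1 : (1 : ℤ) ≤ n := by exact_mod_cast hn
  have hbig : c + Divisor.degree A1 < ((l : ℤ) + 1) * n := by
    have : ((l : ℤ) + 1) * 1 ≤ ((l : ℤ) + 1) * n :=
      mul_le_mul_of_nonneg_left hn1 (by positivity)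
    linarith
  -- a nonzero element of `L(l B - A1)`
  have hle2 : l • B - A1 ≤ l • B := sub_le_self _ hA1nn
  have hstep2 := finrank_le_of_le hle2
  rw [map_sub, sub_sub_cancel] at hstep2
  have hpos : 0 < Module.finrank K (riemannRochSpace (l • B - A1)) := by
    have := hc l
    have h4 : (0 : ℤ) < (Module.finrank K (riemannRochSpace (l • B - A1)) : ℤ) := by linarith
    exact_mod_cast h4
  obtain ⟨⟨z, hzmem⟩, hz⟩ := Module.finrank_pos_iff_exists_ne_zero.mp hpos
  have hz0 : z ≠ 0 := fun h => hz (Subtype.ext h)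
  -- `D' = A1 - div z ≤ l B`
  have hD' : A1 - divOf K z ≤ l • B := by
    rw [Finsupp.le_def]
    intro v
    rw [Finsupp.sub_apply, divOf_apply hz0]
    have := (Vle.iff_ord.mp (hzmem v)).resolve_left hz0
    rw [Finsupp.sub_apply] at this
    linarith
  have hstep3 := finrank_le_of_le hD'
  rw [map_sub, degree_divOf, sub_zero, hdegB] at hstep3
  have hstep4 : (Module.finrank K (riemannRochSpace (A1 - divOf K z)) : ℤ) ≤
      Module.finrank K (riemannRochSpace A1) := by
    exact_mod_cast finrank_sub_divOf_le A1 hz0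
  have := hc l
  linarith

/-- **Riemann's inequality**: `deg D - l(D)` is bounded above. -/
theorem riemann_bound :
    ∃ γ : ℤ, ∀ D : Divisor K F,
      Divisor.degree D - (Module.finrank K (riemannRochSpace D) : ℤ) ≤ γ := by
  by_cases hne : Nonempty (Place K F)
  · exact riemann_bound_aux
  · refine ⟨0, fun D => ?_⟩
    have : IsEmpty (Place K F) := not_nonempty_iff.mp hne
    have hD : D = 0 := Subsingleton.elim _ _
    subst hD
    simp

end Riemann

end Fermat.Agent.RR.Bound
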