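/-
RR consumer brick (helper66), for J2-DESC (D3): the **canonical effective representative** of a
divisor class relative to a place `P` of degree one.

For a divisor `D`, let `n₀ = minTwist D P` be the least integer with `L(D + n₀ P) ≠ 0` (it exists by
Riemann's inequality and because `L = 0` in negative degree).  If `deg P = 1` then
`l(D + n₀ P) = 1`, so there is a unique effective divisor `effRep D P` linearly equivalent to
`D + n₀ P`.  Both `minTwist` and `effRep` only depend on the class of `D`, and they are
characterised intrinsically (in terms of `≤`, `principal` and `P`), hence are equivariant under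
any permutation of the places that preserves principal divisors and fixes `P`.
-/
import Fermat.Agent.RR.RiemannBound

set_option autoImplicit false

noncomputable section

open AlgebraicCurve WithZero

namespace Fermat.Agent.RR.EffRep

open Fermat.Agent.RRh45 Fermat.Agent.RR.Bound Fermat.Agent.S24

variable {K F : Type*} [Field K] [Field F] [Algebra K F]

/-- The twist `D + n P`. -/
def tw (D : Divisor K F) (P : Place K F) (n : ℤ) : Divisor K F := D + Finsupp.single P n

theorem degree_tw (D : Divisor K F) (P : Place K F) (n : ℤ) :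
    Divisor.degree (tw D P n) = Divisor.degree D + n * P.deg := by
  unfold tw
  rw [map_add, Divisor.degree_single]

theorem tw_le_tw (D : Divisor K F) (P : Place K F) {m n : ℤ} (h : m ≤ n) :
    tw D P m ≤ tw D P n := by
  unfold tw
  refine add_le_add_right ?_ D
  rw [Finsupp.le_def]
  intro v
  by_cases hv : v = P
  · subst hv; simpa using h
  · rw [Finsupp.single_eq_of_ne hv, Finsupp.single_eq_of_ne hv]

theorem tw_sub_tw (D D' : Divisor K F) (P : Place K F) (n : ℤ) :
    tw D' P n - tw D P n = D' - D := by
  unfold tw; abel

/-! ### Effective divisors in a class and `L(D)` -/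

/-- If `E ≥ 0` and `E - D = div g` then `g ∈ L(D)`. -/
theorem mem_of_principal {D E : Divisor K F} (hE : 0 ≤ E) {g : F}
    (hg : ∀ v : Place K F, (E - D) v = v.ord g) : g ∈ riemannRochSpace D := by
  intro v
  show Vle v g (D v)
  rw [Vle.iff_ord]
  right
  have h1 := hg v
  have h2 : 0 ≤ E v := Finsupp.le_def.mp hE v
  rw [Finsupp.sub_apply] at h1
  linarith

section Principal

variable [HasPrincipalDivisors K F]

theorem nonneg_add_divOf {D : Divisor K F} {f : F} (hf : f ∈ riemannRochSpace D) (hf0 : f ≠ 0) :
    0 ≤ D + divOf K f := by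
  rw [Finsupp.le_def]
  intro v
  have := (Vle.iff_ord.mp (hf v)).resolve_left hf0
  rw [Finsupp.add_apply, divOf_apply hf0]
  simpa using (by linarith : 0 ≤ D v + v.ord f)

theorem divOf_mem_principal {f : F} (hf0 : f ≠ 0) :
    divOf K f ∈ Divisor.principal (K := K) (F := F) :=
  ⟨f, hf0, fun v => divOf_apply hf0 v⟩

/-- `L(D) ≠ 0` iff the class of `D` contains an effective divisor. -/
theorem riemannRochSpace_ne_bot_iff {D : Divisor K F} :
    riemannRochSpace D ≠ ⊥ ↔
      ∃ E : Divisor K F, 0 ≤ E ∧ E - D ∈ Divisor.principal (K := K) (F := F) := by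
  constructor
  · intro h
    obtain ⟨f, hf, hf0⟩ := (Submodule.ne_bot_iff _).mp h
    refine ⟨D + divOf K f, nonneg_add_divOf hf hf0, ?_⟩
    rw [add_sub_cancel_left]
    exact divOf_mem_principal hf0
  · rintro ⟨E, hE, g, hg0, hg⟩
    exact (Submodule.ne_bot_iff _).mpr ⟨g, mem_of_principal hE hg, hg0⟩

end Principal

/-! ### The minimal twist -/

section Min

variable [FiniteResidues K F] [HasPrincipalDivisors K F]

/-- Riemann: some twist of `D` by `P` has a nonzero section. -/
theorem exists_twist_ne_bot (D : Divisor K F) (P : Place K F) :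
    ∃ n : ℤ, riemannRochSpace (tw D P n) ≠ ⊥ := by
  have : Nonempty (Place K F) := ⟨P⟩
  obtain ⟨γ, hγ⟩ := riemann_bound (K := K) (F := F)
  set n : ℤ := max 0 (γ + 1 - Divisor.degree D) with hn
  refine ⟨n, fun hbot => ?_⟩
  have h1 := hγ (tw D P n)
  rw [hbot, finrank_bot, degree_tw] at h1
  have hn0 : 0 ≤ n := le_max_left _ _
  have hn1 : γ + 1 - Divisor.degree D ≤ n := le_max_right _ _
  have hdeg : (1 : ℤ) ≤ P.deg := by exact_mod_cast deg_pos P
  have : n * 1 ≤ n * P.deg := mul_le_mul_of_nonneg_left hdeg hn0
  push_cast at h1
  linarith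

/-- Twists of very negative degree have no sections. -/
theorem twist_eq_bot_of_lt (D : Divisor K F) (P : Place K F) {m : ℤ}
    (hm : m < -|Divisor.degree D| - 1) : riemannRochSpace (tw D P m) = ⊥ := by
  apply riemannRochSpace_eq_bot_of_degree_neg
  rw [degree_tw]
  have hdeg : (1 : ℤ) ≤ P.deg := by exact_mod_cast deg_pos P
  have habs := le_abs_self (Divisor.degree D)
  have h0 := abs_nonneg (Divisor.degree D)
  have hm0 : m ≤ 0 := by linarith
  have : m * (P.deg : ℤ) ≤ m * 1 := mul_le_mul_of_nonpos_left hdeg hm0
  linarith

theorem exists_minTwist (D : Divisor K F) (P : Place K F) :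
    ∃ n : ℤ, riemannRochSpace (tw D P n) ≠ ⊥ ∧
      ∀ m : ℤ, riemannRochSpace (tw D P m) ≠ ⊥ → n ≤ m := by
  refine Int.exists_least_of_bdd ⟨-|Divisor.degree D| - 1, fun m hm => ?_⟩
    (exists_twist_ne_bot D P)
  by_contra hlt
  exact hm (twist_eq_bot_of_lt D P (not_le.mp hlt))

/-- The least `n` with `L(D + n P) ≠ 0`. -/
def minTwist (D : Divisor K F) (P : Place K F) : ℤ := (exists_minTwist D P).choose

theorem minTwist_ne_bot (D : Divisor K F) (P : Place K F) :
    riemannRochSpace (tw D P (minTwist D P)) ≠ ⊥ :=
  (exists_minTwist D P).choose_spec.1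

theorem minTwist_le (D : Divisor K F) (P : Place K F) {m : ℤ}
    (hm : riemannRochSpace (tw D P m) ≠ ⊥) : minTwist D P ≤ m :=
  (exists_minTwist D P).choose_spec.2 m hm

theorem eq_bot_of_lt_minTwist (D : Divisor K F) (P : Place K F) {m : ℤ}
    (hm : m < minTwist D P) : riemannRochSpace (tw D P m) = ⊥ := by
  by_contra h
  exact absurd (minTwist_le D P h) (not_le.mpr hm)

/-- At the minimal twist by a place of degree one the Riemann–Roch space is a line. -/
theorem finrank_minTwist (D : Divisor K F) (P : Place K F) (hP : P.deg = 1) :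
    Module.finrank K (riemannRochSpace (tw D P (minTwist D P))) = 1 := by
  have : Nonempty (Place K F) := ⟨P⟩
  apply le_antisymm
  · have hle := tw_le_tw D P (show minTwist D P - 1 ≤ minTwist D P by linarith)
    have h1 := finrank_le_of_le hle
    rw [eq_bot_of_lt_minTwist D P (show minTwist D P - 1 < minTwist D P by linarith), finrank_bot,
      degree_tw, degree_tw, hP] at h1
    push_cast at h1
    have : (Module.finrank K (riemannRochSpace (tw D P (minTwist D P))) : ℤ) ≤ 1 := by linarith
    exact_mod_cast this
  · exact Submodule.one_le_finrank_iff.mpr (minTwist_ne_bot D P)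

/-- A chosen nonzero section at the minimal twist. -/
def minSection (D : Divisor K F) (P : Place K F) : F :=
  ((Submodule.ne_bot_iff _).mp (minTwist_ne_bot D P)).choose

theorem minSection_mem (D : Divisor K F) (P : Place K F) :
    minSection D P ∈ riemannRochSpace (tw D P (minTwist D P)) :=
  ((Submodule.ne_bot_iff _).mp (minTwist_ne_bot D P)).choose_spec.1

theorem minSection_ne_zero (D : Divisor K F) (P : Place K F) : minSection D P ≠ 0 :=
  ((Submodule.ne_bot_iff _).mp (minTwist_ne_bot D P)).choose_spec.2

/-- The canonical effective representative of the class of `D + (minTwist D P) P`. -/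
def effRep (D : Divisor K F) (P : Place K F) : Divisor K F :=
  tw D P (minTwist D P) + divOf K (minSection D P)

theorem effRep_nonneg (D : Divisor K F) (P : Place K F) : 0 ≤ effRep D P :=
  nonneg_add_divOf (minSection_mem D P) (minSection_ne_zero D P)

theorem effRep_sub_mem_principal (D : Divisor K F) (P : Place K F) :
    effRep D P - tw D P (minTwist D P) ∈ Divisor.principal (K := K) (F := F) := by
  unfold effRep
  rw [add_sub_cancel_left]
  exact divOf_mem_principal (minSection_ne_zero D P)

theorem degree_effRep (D : Divisor K F) (P : Place K F) :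
    Divisor.degree (effRep D P) = Divisor.degree D + minTwist D P * P.deg := by
  unfold effRep
  rw [map_add, degree_divOf, add_zero, degree_tw]

/-- **Uniqueness.** An effective divisor linearly equivalent to `D + n P` forces
`minTwist D P ≤ n`, and for `n = minTwist D P` (and `deg P = 1`) it is `effRep D P`. -/
theorem minTwist_le_of_effective (D : Divisor K F) (P : Place K F) {E : Divisor K F} {n : ℤ}
    (hE : 0 ≤ E) (h : E - tw D P n ∈ Divisor.principal (K := K) (F := F)) :
    minTwist D P ≤ n :=
  minTwist_le D P (riemannRochSpace_ne_bot_iff.mpr ⟨E, hE, h⟩)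

theorem eq_effRep_of_effective (D : Divisor K F) (P : Place K F) (hP : P.deg = 1)
    {E : Divisor K F} (hE : 0 ≤ E)
    (h : E - tw D P (minTwist D P) ∈ Divisor.principal (K := K) (F := F)) :
    E = effRep D P := by
  obtain ⟨g, hg0, hg⟩ := h
  have hgmem : g ∈ riemannRochSpace (tw D P (minTwist D P)) := mem_of_principal hE hg
  -- `g` is a scalar multiple of the chosen section
  have hone := finrank_minTwist D P hP
  have hnz : (⟨minSection D P, minSection_mem D P⟩ :
      riemannRochSpace (tw D P (minTwist D P))) ≠ 0 := by
    intro h0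
    exact minSection_ne_zero D P (congrArg Subtype.val h0)
  obtain ⟨c, hc⟩ := (finrank_eq_one_iff_of_nonzero' _ hnz).mp hone ⟨g, hgmem⟩
  have hc' : c • minSection D P = g := congrArg Subtype.val hc
  have hc0 : c ≠ 0 := by
    rintro rfl
    rw [zero_smul] at hc'
    exact hg0 hc'.symm
  ext v
  have hord : v.ord g = v.ord (minSection D P) := by
    rw [← hc', Algebra.smul_def,
      v.ord_mul ((map_ne_zero (algebraMap K F)).mpr hc0) (minSection_ne_zero D P),
      PlaceB.ord_algebraMap v hc0, zero_add]
  have h1 := hg v
  rw [Finsupp.sub_apply] at h1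
  unfold effRep
  rw [Finsupp.add_apply, divOf_apply (minSection_ne_zero D P), ← hord]
  linarith

/-- **Class invariance.** -/
theorem minTwist_eq_of_principal (P : Place K F) {D D' : Divisor K F}
    (h : D' - D ∈ Divisor.principal (K := K) (F := F)) : minTwist D' P = minTwist D P := by
  have key : ∀ {D₁ D₂ : Divisor K F}, D₂ - D₁ ∈ Divisor.principal (K := K) (F := F) →
      minTwist D₂ P ≤ minTwist D₁ P := by
    intro D₁ D₂ h12
    refine minTwist_le_of_effective D₂ P (effRep_nonneg D₁ P) ?_
    have e : effRep D₁ P - tw D₂ P (minTwist D₁ P)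
        = (effRep D₁ P - tw D₁ P (minTwist D₁ P)) - (D₂ - D₁) := by
      unfold tw; abel
    rw [e]
    exact AddSubgroup.sub_mem _ (effRep_sub_mem_principal D₁ P) h12
  refine le_antisymm (key h) (key ?_)
  have : D - D' = -(D' - D) := by abel
  rw [this]
  exact AddSubgroup.neg_mem _ h

theorem effRep_eq_of_principal (P : Place K F) (hP : P.deg = 1) {D D' : Divisor K F}
    (h : D' - D ∈ Divisor.principal (K := K) (F := F)) : effRep D' P = effRep D P := by
  symm
  refine eq_effRep_of_effective D' P hP (effRep_nonneg D P) ?_
  rw [minTwist_eq_of_principal P h]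
  have e : effRep D P - tw D' P (minTwist D P)
      = (effRep D P - tw D P (minTwist D P)) - (D' - D) := by
    unfold tw; abel
  rw [e]
  exact AddSubgroup.sub_mem _ (effRep_sub_mem_principal D P) h

/-! ### Equivariance -/

/-- The action of a permutation of the places on divisors. -/
abbrev act (τ : Place K F ≃ Place K F) : Divisor K F ≃+ Divisor K F := Finsupp.domCongr τ

omit [FiniteResidues K F] [HasPrincipalDivisors K F] in
theorem act_apply (τ : Place K F ≃ Place K F) (D : Divisor K F) (v : Place K F) :
    act τ D v = D (τ.symm v) := by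
  simp [act, Finsupp.domCongr_apply, Finsupp.equivMapDomain_apply]

omit [FiniteResidues K F] [HasPrincipalDivisors K F] in
theorem act_nonneg (τ : Place K F ≃ Place K F) {D : Divisor K F} (hD : 0 ≤ D) : 0 ≤ act τ D := by
  rw [Finsupp.le_def]
  intro v
  rw [act_apply]
  exact Finsupp.le_def.mp hD (τ.symm v)

omit [FiniteResidues K F] [HasPrincipalDivisors K F] in
theorem act_tw (τ : Place K F ≃ Place K F) (D : Divisor K F) (P : Place K F) (hτP : τ P = P)
    (n : ℤ) : act τ (tw D P n) = tw (act τ D) P n := by
  unfold tw
  rw [map_add]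
  congr 1
  simp only [act, Finsupp.domCongr_apply, Finsupp.equivMapDomain_single, hτP]

theorem minTwist_act_le (τ : Place K F ≃ Place K F) (P : Place K F) (hτP : τ P = P)
    (hτ : ∀ D : Divisor K F, D ∈ Divisor.principal (K := K) (F := F) →
      act τ D ∈ Divisor.principal (K := K) (F := F))
    (D : Divisor K F) : minTwist (act τ D) P ≤ minTwist D P := by
  refine minTwist_le_of_effective (act τ D) P (act_nonneg τ (effRep_nonneg D P)) ?_
  rw [← act_tw τ D P hτP, ← map_sub]
  exact hτ _ (effRep_sub_mem_principal D P)

/-- **Equivariance** of the minimal twist under a permutation of places preserving principal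
divisors (in both directions) and fixing `P`. -/
theorem minTwist_act (τ : Place K F ≃ Place K F) (P : Place K F) (hτP : τ P = P)
    (hτ : ∀ D : Divisor K F, D ∈ Divisor.principal (K := K) (F := F) ↔
      act τ D ∈ Divisor.principal (K := K) (F := F))
    (D : Divisor K F) : minTwist (act τ D) P = minTwist D P := by
  refine le_antisymm (minTwist_act_le τ P hτP (fun D hD => (hτ D).mp hD) D) ?_
  have hsymmP : τ.symm P = P := by rw [Equiv.symm_apply_eq, hτP]
  have hsymm : ∀ D : Divisor K F, D ∈ Divisor.principal (K := K) (F := F) →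
      act τ.symm D ∈ Divisor.principal (K := K) (F := F) := by
    intro D hD
    rw [hτ]
    have : act τ (act τ.symm D) = D := by
      ext v
      rw [act_apply, act_apply, Equiv.symm_symm, Equiv.apply_symm_apply]
    rwa [this]
  have h := minTwist_act_le τ.symm P hsymmP hsymm (act τ D)
  have hback : act τ.symm (act τ D) = D := by
    ext v
    rw [act_apply, act_apply, Equiv.symm_symm, Equiv.symm_apply_apply]
  rwa [hback] at h

/-- **Equivariance** of the canonical effective representative. -/
theorem effRep_act (τ : Place K F ≃ Place K F) (P : Place K F) (hP : P.deg = 1) (hτP : τ P = P)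
    (hτ : ∀ D : Divisor K F, D ∈ Divisor.principal (K := K) (F := F) ↔
      act τ D ∈ Divisor.principal (K := K) (F := F))
    (D : Divisor K F) : effRep (act τ D) P = act τ (effRep D P) := by
  symm
  refine eq_effRep_of_effective (act τ D) P hP (act_nonneg τ (effRep_nonneg D P)) ?_
  rw [minTwist_act τ P hτP hτ D, ← act_tw τ D P hτP, ← map_sub]
  exact (hτ _).mp (effRep_sub_mem_principal D P)

/-- If `τ` fixes the class of `D`, it fixes the canonical effective representative. -/
theorem act_effRep_eq_of_class_fixed (τ : Place K F ≃ Place K F) (P : Place K F) (hP : P.deg = 1)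
    (hτP : τ P = P)
    (hτ : ∀ D : Divisor K F, D ∈ Divisor.principal (K := K) (F := F) ↔
      act τ D ∈ Divisor.principal (K := K) (F := F))
    {D : Divisor K F} (hD : act τ D - D ∈ Divisor.principal (K := K) (F := F)) :
    act τ (effRep D P) = effRep D P := by
  rw [← effRep_act τ P hP hτP hτ D]
  exact effRep_eq_of_principal P hP hD

end Min

end Fermat.Agent.RR.EffRep
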