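import Fermat.Agent.RR.CharZero
import Fermat.Agent.S24_helper62.CuspEmb

/-!
# Riemann's theorem for the modular function field `ℚ̄(X₀(N))` (prelude `modularFunctionFieldBar N`)

Instances of the RR package (`HasPrincipalDivisors`, `FiniteResidues`, `Nonempty (Place _ _)`) and
Riemann's theorem for `F_N = modularFunctionFieldBar N` over `ℚ̄`, from T24 (`j` is a generator).
-/

set_option autoImplicit false

noncomputable section

open AlgebraicCurve ModularCurve

namespace Fermat.Agent.RR.ModularBar

open Fermat.Agent.S24 Fermat.Agent.RRh45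

variable (N : ℕ) [NeZero N]

theorem isGen_jF : IsGen Kbar (jF N) :=
  ⟨(Fermat.Agent.S24_helper62.m9 N).1, (Fermat.Agent.S24_helper62.m9 N).2.1⟩

theorem hasPrincipalDivisors :
    HasPrincipalDivisors (AlgebraicClosure ℚ) ↥(modularFunctionFieldBar N) :=
  have := isGen_jF N
  FF1.hasPrincipalDivisors (K := Kbar) (jF N)

theorem finiteResidues : FiniteResidues (AlgebraicClosure ℚ) ↥(modularFunctionFieldBar N) :=
  have := isGen_jF N
  CharZero.finiteResidues (K := Kbar) (jF N)

theorem nonempty_place : Nonempty (Place (AlgebraicClosure ℚ) ↥(modularFunctionFieldBar N)) :=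
  have := isGen_jF N
  CharZero.nonempty_place (K := Kbar) (jF N)

theorem deg_eq_one (v : Place (AlgebraicClosure ℚ) ↥(modularFunctionFieldBar N)) : v.deg = 1 :=
  have := isGen_jF N
  PlaceB.deg_eq_one v (jF N)

/-- **Riemann's theorem for `ℚ̄(X₀(N))`.** -/
theorem riemann :
    ∃ g : ℤ, (∀ D : Divisor (AlgebraicClosure ℚ) ↥(modularFunctionFieldBar N),
        Divisor.degree D + 1 - Module.finrank (AlgebraicClosure ℚ) (riemannRochSpace D) ≤ g) ∧
      (∃ D₀ : Divisor (AlgebraicClosure ℚ) ↥(modularFunctionFieldBar N),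
        Divisor.degree D₀ + 1 - Module.finrank (AlgebraicClosure ℚ) (riemannRochSpace D₀) = g) ∧
      ∃ c : ℤ, ∀ D : Divisor (AlgebraicClosure ℚ) ↥(modularFunctionFieldBar N),
        c ≤ Divisor.degree D →
          (Module.finrank (AlgebraicClosure ℚ) (riemannRochSpace D) : ℤ)
            = Divisor.degree D + 1 - g :=
  have := isGen_jF N
  CharZero.riemann (K := Kbar) (jF N)

end Fermat.Agent.RR.ModularBar
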