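/-
RR package, piece (R2) (helper6): the adelic step lemma and the five-term exact sequence of
Weil repartitions, packaged as dimension identities.  Mathlib + prelude definitions only.
-/
import Mathlib
import Fermat.Prelude.Def_AlgebraicCurve_Repartitions

set_option autoImplicit false

noncomputable section

namespace Fermat.Agent.RR.Adelic

open AlgebraicCurve

/-! ### Abstract linear algebra: relative quotients as submodules of a quotient -/

section Abstract

variable {K V : Type*} [Field K] [AddCommGroup V] [Module K V]

/-- The relative quotient `A / (A ⊓ A')`, realised as the image of `A` in `V ⧸ A'`. -/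
abbrev relQuot (A' A : Submodule K V) : Submodule K (V ⧸ A') := A.map A'.mkQ

theorem relQuot_mono (A' : Submodule K V) {A B : Submodule K V} (h : A ≤ B) :
    relQuot A' A ≤ relQuot A' B := Submodule.map_mono h

theorem finrank_relQuot_congr {C C' : Submodule K V} (h : C = C') (A : Submodule K V) :
    Module.finrank K (relQuot C A) = Module.finrank K (relQuot C' A) := by
  subst h; rfl

theorem relQuot_self (A : Submodule K V) : relQuot A A = ⊥ := by
  rw [relQuot, Submodule.mkQ_map_self]

/-- the canonical map `V ⧸ A' → V ⧸ C` for `A' ≤ C`. -/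
def quotMap {A' C : Submodule K V} (h : A' ≤ C) : (V ⧸ A') →ₗ[K] (V ⧸ C) :=
  Submodule.mapQ A' C LinearMap.id (by simpa using h)

@[simp]
theorem quotMap_mk {A' C : Submodule K V} (h : A' ≤ C) (x : V) :
    quotMap h (Submodule.Quotient.mk x) = Submodule.Quotient.mk x := rfl

theorem quotMap_comp_mkQ {A' C : Submodule K V} (h : A' ≤ C) :
    (quotMap h).comp A'.mkQ = C.mkQ := by
  ext x; rfl

theorem quotMap_surjective {A' C : Submodule K V} (h : A' ≤ C) :
    Function.Surjective (quotMap h) := by
  intro y
  obtain ⟨x, rfl⟩ := Submodule.Quotient.mk_surjective _ y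
  exact ⟨Submodule.Quotient.mk x, rfl⟩

theorem ker_quotMap {A' C : Submodule K V} (h : A' ≤ C) :
    LinearMap.ker (quotMap h) = relQuot A' C := by
  ext y
  obtain ⟨x, rfl⟩ := Submodule.Quotient.mk_surjective _ y
  simp only [LinearMap.mem_ker, quotMap_mk, Submodule.Quotient.mk_eq_zero, relQuot,
    Submodule.mem_map, Submodule.mkQ_apply]
  constructor
  · intro hx
    exact ⟨x, hx, rfl⟩
  · rintro ⟨c, hc, hcx⟩
    have : c - x ∈ A' := (Submodule.Quotient.eq A').mp hcx
    have h2 : x = c - (c - x) := by abel
    rw [h2]
    exact C.sub_mem hc (h this)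

theorem map_quotMap_relQuot {A' C : Submodule K V} (h : A' ≤ C) (A : Submodule K V) :
    (relQuot A' A).map (quotMap h) = relQuot C A := by
  rw [relQuot, relQuot, ← Submodule.map_comp, quotMap_comp_mkQ]

theorem relQuot_inf_relQuot {A' A C : Submodule K V} (h : A' ≤ C) :
    relQuot A' A ⊓ relQuot A' C = relQuot A' (A ⊓ C) := by
  apply le_antisymm
  · rintro y ⟨⟨a, ha, rfl⟩, ⟨c, hc, hca⟩⟩
    refine ⟨a, ⟨ha, ?_⟩, rfl⟩
    have : c - a ∈ A' := (Submodule.Quotient.eq A').mp hca
    have h2 : a = c - (c - a) := by abel
    rw [h2]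
    exact C.sub_mem hc (h this)
  · exact le_inf (relQuot_mono _ inf_le_left) (relQuot_mono _ inf_le_right)

/-- **Splitting**: for `A' ≤ C`, `dim A/A' = dim (A ⊓ C)/A' + dim A/C` (images in the quotients). -/
theorem finrank_relQuot_split {A' C : Submodule K V} (h : A' ≤ C) (A : Submodule K V)
    [FiniteDimensional K (relQuot A' A)] :
    Module.finrank K (relQuot A' A) =
      Module.finrank K (relQuot A' (A ⊓ C)) + Module.finrank K (relQuot C A) := by
  set φ : ↥(relQuot A' A) →ₗ[K] (V ⧸ C) := (quotMap h).domRestrict (relQuot A' A) with hφ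
  have h1 := LinearMap.finrank_range_add_finrank_ker φ
  have hrange : LinearMap.range φ = relQuot C A := by
    rw [hφ, LinearMap.range_domRestrict, map_quotMap_relQuot]
  have hker : LinearMap.ker φ =
      Submodule.comap (relQuot A' A).subtype (relQuot A' (A ⊓ C)) := by
    ext ⟨y, hy⟩
    simp only [hφ, LinearMap.mem_ker, LinearMap.domRestrict_apply, Submodule.mem_comap,
      Submodule.subtype_apply]
    rw [← LinearMap.mem_ker, ker_quotMap, ← relQuot_inf_relQuot h]
    exact ⟨fun hc => ⟨hy, hc⟩, fun hc => hc.2⟩
  have hle : relQuot A' (A ⊓ C) ≤ relQuot A' A := relQuot_mono _ inf_le_left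
  have h2 : Module.finrank K (LinearMap.ker φ) = Module.finrank K (relQuot A' (A ⊓ C)) := by
    rw [hker]
    exact (Submodule.comapSubtypeEquivOfLe hle).finrank_eq
  rw [hrange, h2] at h1
  omega

/-- **Chain rule**: for `A' ≤ A'' ≤ A`, `dim A/A' = dim A''/A' + dim A/A''`. -/
theorem finrank_relQuot_chain {A' A'' A : Submodule K V} (h1 : A' ≤ A'') (h2 : A'' ≤ A)
    [FiniteDimensional K (relQuot A' A)] :
    Module.finrank K (relQuot A' A) =
      Module.finrank K (relQuot A' A'') + Module.finrank K (relQuot A'' A) := by
  have := finrank_relQuot_split h1 A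
  rwa [inf_eq_right.mpr h2] at this

theorem finiteDimensional_relQuot_of_chain {A' A'' A : Submodule K V} (h1 : A' ≤ A'')
    [FiniteDimensional K (relQuot A' A'')] [FiniteDimensional K (relQuot A'' A)] :
    FiniteDimensional K (relQuot A' A) := by
  -- `relQuot A' A` maps onto `relQuot A'' A` with kernel inside `relQuot A' A''`.
  set φ : ↥(relQuot A' A) →ₗ[K] ↥(relQuot A'' A) :=
    ((quotMap h1).domRestrict (relQuot A' A)).codRestrict (relQuot A'' A) (by
      rintro ⟨y, hy⟩
      rw [← map_quotMap_relQuot h1 A]
      exact Submodule.mem_map_of_mem hy) with hφ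
  have hker : LinearMap.ker φ ≤ Submodule.comap (relQuot A' A).subtype (relQuot A' A'') := by
    rintro ⟨y, hy⟩ hy0
    have : quotMap h1 y = 0 := congrArg Subtype.val (LinearMap.mem_ker.mp hy0)
    rw [← LinearMap.mem_ker, ker_quotMap] at this
    exact this
  have hfk : FiniteDimensional K (LinearMap.ker φ) := by
    have hinj : Function.Injective
        ((relQuot A' A).subtype.domRestrict (LinearMap.ker φ)
          |>.codRestrict (relQuot A' A'') (fun x => hker x.2)) := by
      intro x y hxy
      have h3 := congrArg Subtype.val hxy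
      exact Subtype.ext (Subtype.ext h3)
    exact FiniteDimensional.of_injective _ hinj
  have hfr : FiniteDimensional K (LinearMap.range φ) := inferInstance
  -- domain / ker ≃ range
  have e := φ.quotKerEquivRange
  have hq : Module.Finite K (↥(relQuot A' A) ⧸ LinearMap.ker φ) :=
    Module.Finite.equiv e.symm
  exact Module.Finite.of_submodule_quotient (LinearMap.ker φ)

/-- the injective map `W ⧸ δ⁻¹A' → V ⧸ A'` induced by `δ`. -/
def comapQuot {W : Type*} [AddCommGroup W] [Module K W] (δ : W →ₗ[K] V) (A' : Submodule K V) :
    (W ⧸ A'.comap δ) →ₗ[K] (V ⧸ A') := Submodule.mapQ _ _ δ le_rfl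

theorem comapQuot_injective {W : Type*} [AddCommGroup W] [Module K W] (δ : W →ₗ[K] V)
    (A' : Submodule K V) : Function.Injective (comapQuot δ A') := by
  rw [← LinearMap.ker_eq_bot, comapQuot]
  apply Submodule.ker_liftQ_eq_bot
  intro x hx
  have hx' : A'.mkQ (δ x) = 0 := hx
  exact (Submodule.Quotient.mk_eq_zero A').mp hx'

theorem map_comapQuot_relQuot {W : Type*} [AddCommGroup W] [Module K W] (δ : W →ₗ[K] V)
    {A' A : Submodule K V} (h : A' ≤ A) :
    (relQuot (A'.comap δ) (A.comap δ)).map (comapQuot δ A') =
      relQuot A' (A ⊓ (A' ⊔ LinearMap.range δ)) := by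
  have hcomp : (comapQuot δ A').comp (A'.comap δ).mkQ = A'.mkQ.comp δ := by
    ext x; rfl
  rw [relQuot, ← Submodule.map_comp, hcomp, Submodule.map_comp, Submodule.map_comap_eq]
  show _ = Submodule.map A'.mkQ (A ⊓ (A' ⊔ LinearMap.range δ))
  rw [inf_comm A (A' ⊔ LinearMap.range δ), sup_inf_assoc_of_le _ h, Submodule.map_sup,
    Submodule.mkQ_map_self, bot_sup_eq]

theorem finite_relQuot_comap {W : Type*} [AddCommGroup W] [Module K W] (δ : W →ₗ[K] V)
    {A' A : Submodule K V} (h : A' ≤ A) [FiniteDimensional K (relQuot A' A)] :
    FiniteDimensional K (relQuot (A'.comap δ) (A.comap δ)) := by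
  have hle : relQuot A' (A ⊓ (A' ⊔ LinearMap.range δ)) ≤ relQuot A' A :=
    relQuot_mono _ inf_le_left
  have hfin : FiniteDimensional K (relQuot A' (A ⊓ (A' ⊔ LinearMap.range δ))) :=
    Submodule.finiteDimensional_of_le hle
  rw [← map_comapQuot_relQuot δ h] at hfin
  exact Module.Finite.equiv
    (Submodule.equivMapOfInjective (comapQuot δ A') (comapQuot_injective δ A') _).symm

/-- **Exact sequence identity.**  For a linear map `δ : W → V` and `A' ≤ A` in `V`:
`dim A/A' = dim δ⁻¹A / δ⁻¹A' + dim (image of A in V/(A' + δ W))`. -/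
theorem finrank_relQuot_exact {W : Type*} [AddCommGroup W] [Module K W] (δ : W →ₗ[K] V)
    {A' A : Submodule K V} (h : A' ≤ A) [FiniteDimensional K (relQuot A' A)] :
    Module.finrank K (relQuot A' A) =
      Module.finrank K (relQuot (A'.comap δ) (A.comap δ)) +
        Module.finrank K (relQuot (A' ⊔ LinearMap.range δ) A) := by
  rw [finrank_relQuot_split (le_sup_left : A' ≤ A' ⊔ LinearMap.range δ) A]
  congr 1
  rw [← map_comapQuot_relQuot δ h]
  exact (Submodule.equivMapOfInjective (comapQuot δ A') (comapQuot_injective δ A') _).finrank_eq.symm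

/-- the image of `A` in a further quotient is finite-dimensional. -/
theorem finite_relQuot_of_le {A' C : Submodule K V} (h : A' ≤ C) (A : Submodule K V)
    [FiniteDimensional K (relQuot A' A)] : FiniteDimensional K (relQuot C A) := by
  rw [← map_quotMap_relQuot h A]
  infer_instance

/-- **Extension**: if `L' ≤ L`, `L'` and `L/L'` finite-dimensional, then so is `L`, and
`dim L = dim L' + dim L/L'`. -/
theorem finite_and_finrank_of_relQuot {L' L : Submodule K V} (h : L' ≤ L)
    [FiniteDimensional K L'] [FiniteDimensional K (relQuot L' L)] :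
    FiniteDimensional K L ∧
      Module.finrank K L = Module.finrank K L' + Module.finrank K (relQuot L' L) := by
  set g : ↥L →ₗ[K] (V ⧸ L') := L'.mkQ.domRestrict L with hg
  have hrange : LinearMap.range g = relQuot L' L := by
    rw [hg, LinearMap.range_domRestrict]
  have hker : LinearMap.ker g = Submodule.comap L.subtype L' := by
    ext x
    rw [LinearMap.mem_ker, hg, LinearMap.domRestrict_apply, Submodule.mkQ_apply,
      Submodule.Quotient.mk_eq_zero]
    rfl
  have e : ↥(LinearMap.ker g) ≃ₗ[K] ↥L' :=
    (LinearEquiv.ofEq _ _ hker).trans (Submodule.comapSubtypeEquivOfLe h)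
  have hfk : FiniteDimensional K (LinearMap.ker g) := Module.Finite.equiv e.symm
  have hfr : FiniteDimensional K (LinearMap.range g) := by rw [hrange]; infer_instance
  have hq : Module.Finite K (↥L ⧸ LinearMap.ker g) :=
    Module.Finite.equiv g.quotKerEquivRange.symm
  have hfin : FiniteDimensional K L := Module.Finite.of_submodule_quotient (LinearMap.ker g)
  refine ⟨hfin, ?_⟩
  have := LinearMap.finrank_range_add_finrank_ker g
  rw [hrange, e.finrank_eq] at this
  omega

end Abstract

/-! ### Local lemmas at a place -/

section Local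

variable {K F : Type*} [Field K] [Field F] [Algebra K F] (v : Place K F)

theorem mem_valuationSubring_iff_adic (x : F) :
    x ∈ v.toValuationSubring ↔ v.adicValuation x ≤ 1 := by
  refine ⟨v.adicValuation_le_one_of_mem, fun hle => ?_⟩
  by_contra hx
  have hx0 : x ≠ 0 := fun h => hx (h ▸ v.toValuationSubring.zero_mem)
  have hxi : x⁻¹ ∈ v.toValuationSubring := (v.toValuationSubring.mem_or_inv_mem x).resolve_left hx
  have h1 : v.adicValuation x⁻¹ ≤ 1 := v.adicValuation_le_one_of_mem hxi
  have h2 : 1 ≤ v.adicValuation x⁻¹ := by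
    rw [map_inv₀]
    exact (one_le_inv₀ (zero_lt_iff.mpr (v.adicValuation_ne_zero hx0))).mpr hle
  have h3 : v.adicValuation ((⟨x⁻¹, hxi⟩ : v.toValuationSubring) : F) = 1 := le_antisymm h1 h2
  obtain ⟨u, hu⟩ := (v.adicValuation_coe_eq_one_iff _).mp h3
  apply hx
  have : x = ((u⁻¹ : v.toValuationSubringˣ) : v.toValuationSubring) := by
    have h4 : ((u : v.toValuationSubring) : F) = x⁻¹ := by rw [hu]
    have h5 : ((u : v.toValuationSubring) : F) *
        (((u⁻¹ : v.toValuationSubringˣ) : v.toValuationSubring) : F) = 1 := by
      rw [← MulMemClass.coe_mul, Units.mul_inv]; rfl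
    rw [h4] at h5
    field_simp at h5
    exact h5.symm
  rw [this]
  exact Subtype.mem _

theorem mem_valuationSubring_iff_ord (x : F) :
    x ∈ v.toValuationSubring ↔ x = 0 ∨ 0 ≤ v.ord x := by
  rw [mem_valuationSubring_iff_adic, v.adicValuation_le_one_iff]

theorem mem_maximalIdeal_iff_ord (a : v.toValuationSubring) :
    a ∈ IsLocalRing.maximalIdeal v.toValuationSubring ↔ (a : F) = 0 ∨ 1 ≤ v.ord (a : F) := by
  rw [IsLocalRing.mem_maximalIdeal, mem_nonunits_iff, ← v.adicValuation_coe_eq_one_iff]
  rcases eq_or_ne (a : F) 0 with h0 | h0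
  · simp [h0]
  · have hmem : 0 ≤ v.ord (a : F) :=
      ((mem_valuationSubring_iff_ord v (a : F)).mp a.2).resolve_left h0
    rw [v.adicValuation_eq_exp_neg_ord h0, or_iff_right h0]
    rw [show (1 : WithZero (Multiplicative ℤ)) = WithZero.exp (0 : ℤ) from rfl,
      WithZero.exp_inj.not]
    omega

end Local

/-! ### The diagonal embedding and the five-term sequence for repartitions -/

section Concrete

variable {K F : Type*} [Field K] [Field F] [Algebra K F]

/-- The diagonal embedding `F → repartitions`, as a `K`-linear map. -/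
def diag : F →ₗ[K] ↥(repartitions K F) :=
  (Algebra.linearMap F ↥(repartitions K F)).restrictScalars K

@[simp]
theorem diag_apply (f : F) (v : Place K F) :
    ((diag (K := K) f : ↥(repartitions K F)) : Place K F → F) v = f := by
  show ((algebraMap F ↥(repartitions K F) f : ↥(repartitions K F)) : Place K F → F) v = f
  rfl

theorem riemannRochSpace_eq_comap (D : Divisor K F) :
    riemannRochSpace D = (repartitionsOf D).comap (diag (K := K) (F := F)) := by
  ext f
  show (∀ v : Place K F, v.adicValuation f ≤ WithZero.exp (D v)) ↔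
    ∀ v : Place K F, v.adicValuation (((diag (K := K) f : ↥(repartitions K F)) :
      Place K F → F) v) ≤ WithZero.exp (D v)
  simp only [diag_apply]

theorem principalRepartitions_eq_range :
    principalRepartitions K F = LinearMap.range (diag (K := K) (F := F)) := by
  ext α
  simp only [principalRepartitions, Submodule.restrictScalars_mem, LinearMap.mem_range]
  rfl

theorem riemannRochSpace_mono {D D' : Divisor K F} (h : D ≤ D') :
    riemannRochSpace D ≤ riemannRochSpace D' := by
  rw [riemannRochSpace_eq_comap, riemannRochSpace_eq_comap]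
  exact Submodule.comap_mono (repartitionsOf_mono h)

/-- The canonical surjection `H1 D' → H1 D` for `D' ≤ D`. -/
def h1Map {D' D : Divisor K F} (h : D' ≤ D) : H1 D' →ₗ[K] H1 D :=
  quotMap (sup_le_sup_right (repartitionsOf_mono h) _)

theorem h1Map_surjective {D' D : Divisor K F} (h : D' ≤ D) :
    Function.Surjective (h1Map h) := quotMap_surjective _

theorem h1Map_mk {D' D : Divisor K F} (h : D' ≤ D) (α : ↥(repartitions K F)) :
    h1Map h (Submodule.Quotient.mk α) = Submodule.Quotient.mk α := rfl

theorem ker_h1Map {D' D : Divisor K F} (h : D' ≤ D) :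
    LinearMap.ker (h1Map h) =
      relQuot (repartitionsOf D' ⊔ principalRepartitions K F) (repartitionsOf D) := by
  rw [h1Map, ker_quotMap, relQuot, relQuot, Submodule.map_sup]
  have : Submodule.map (repartitionsOf D' ⊔ principalRepartitions K F).mkQ
      (principalRepartitions K F) = ⊥ := by
    rw [eq_bot_iff]
    rintro _ ⟨x, hx, rfl⟩
    rw [Submodule.mem_bot, Submodule.mkQ_apply, Submodule.Quotient.mk_eq_zero]
    exact Submodule.mem_sup_right hx
  rw [this, sup_bot_eq]

end Concrete

/-! ### The single-place step -/

section Step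

variable {K F : Type*} [Field K] [Field F] [Algebra K F]

theorem coe_smul_repartitions (c : K) (α : ↥(repartitions K F)) (v : Place K F) :
    ((c • α : ↥(repartitions K F)) : Place K F → F) v =
      algebraMap K F c * (α : Place K F → F) v := by
  show c • ((α : Place K F → F) v) = _
  rw [Algebra.smul_def]

theorem coe_add_repartitions (α β : ↥(repartitions K F)) (v : Place K F) :
    ((α + β : ↥(repartitions K F)) : Place K F → F) v =
      (α : Place K F → F) v + (β : Place K F → F) v := rfl

open Classical in
/-- The repartition with value `x` at `P` and `0` elsewhere. -/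
def sgl (P : Place K F) : F →ₗ[K] ↥(repartitions K F) where
  toFun x := ⟨Pi.single P x, mem_repartitions_of_finite (by
      apply (Set.finite_singleton P).subset
      intro v hv
      by_contra hne
      apply hv
      rw [Pi.single_eq_of_ne hne]
      simp)⟩
  map_add' x y := by
    apply Subtype.ext
    show (Pi.single P (x + y) : Place K F → F) = Pi.single P x + Pi.single P y
    exact Pi.single_add (f := fun _ : Place K F => F) P x y
  map_smul' c x := by
    apply Subtype.ext
    funext v
    rw [RingHom.id_apply, coe_smul_repartitions]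
    show (Pi.single P (c • x) : Place K F → F) v = algebraMap K F c * (Pi.single P x : Place K F → F) v
    by_cases hv : v = P
    · subst hv
      simp [Algebra.smul_def]
    · simp [Pi.single_eq_of_ne hv]

theorem sgl_apply_self (P : Place K F) (x : F) :
    ((sgl P x : ↥(repartitions K F)) : Place K F → F) P = x := by
  classical
  show (Pi.single P x : Place K F → F) P = x
  simp

theorem sgl_apply_of_ne {P v : Place K F} (h : v ≠ P) (x : F) :
    ((sgl P x : ↥(repartitions K F)) : Place K F → F) v = 0 := by
  classical
  show (Pi.single P x : Place K F → F) v = 0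
  simp [Pi.single_eq_of_ne h]

/-- a chosen uniformizer at `P` -/
def unif (P : Place K F) : P.toValuationSubring :=
  Classical.choose (IsDiscreteValuationRing.exists_irreducible P.toValuationSubring)

theorem unif_irreducible (P : Place K F) : Irreducible (unif P) :=
  Classical.choose_spec (IsDiscreteValuationRing.exists_irreducible P.toValuationSubring)

theorem unif_ne_zero (P : Place K F) : ((unif P : P.toValuationSubring) : F) ≠ 0 := by
  simpa [ne_eq, ZeroMemClass.coe_eq_zero] using (unif_irreducible P).ne_zero

theorem ord_unif (P : Place K F) : P.ord ((unif P : P.toValuationSubring) : F) = 1 :=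
  P.ord_coe_irreducible (unif_irreducible P)

theorem ord_unif_zpow_mul (P : Place K F) (n : ℤ) {x : F} (hx : x ≠ 0) :
    P.ord (((unif P : P.toValuationSubring) : F) ^ n * x) = n + P.ord x := by
  rw [P.ord_mul (zpow_ne_zero n (unif_ne_zero P)) hx, P.ord_zpow, ord_unif, mul_one]

theorem add_single_apply_self (D : Divisor K F) (P : Place K F) :
    (D + Finsupp.single P 1 : Divisor K F) P = D P + 1 := by
  rw [Finsupp.add_apply, Finsupp.single_eq_same]

theorem add_single_apply_of_ne (D : Divisor K F) {P v : Place K F} (h : v ≠ P) :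
    (D + Finsupp.single P 1 : Divisor K F) v = D v := by
  rw [Finsupp.add_apply, Finsupp.single_eq_of_ne h, add_zero]

theorem le_add_single (D : Divisor K F) (P : Place K F) : D ≤ D + Finsupp.single P 1 := by
  intro v
  rw [Finsupp.add_apply]
  by_cases h : v = P
  · subst h; simp
  · simp [Finsupp.single_eq_of_ne h]

theorem coe_smul_valuationSubring (P : Place K F) (c : K) (a : P.toValuationSubring) :
    ((c • a : P.toValuationSubring) : F) = algebraMap K F c * (a : F) := by
  rw [Algebra.smul_def]
  rfl

/-- the scaled evaluation `α ↦ π^(D P + 1) * α_P`, landing in the valuation ring of `P`. -/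
def stepToRing (D : Divisor K F) (P : Place K F) :
    ↥(repartitionsOf (D + Finsupp.single P 1)) →ₗ[K] P.toValuationSubring where
  toFun α := ⟨((unif P : P.toValuationSubring) : F) ^ (D P + 1) *
      ((α : ↥(repartitions K F)) : Place K F → F) P, by
    rw [mem_valuationSubring_iff_ord]
    rcases mem_repartitionsOf_iff.mp α.2 P with h0 | h1
    · left; rw [h0, mul_zero]
    · by_cases h0 : ((α : ↥(repartitions K F)) : Place K F → F) P = 0
      · left; rw [h0, mul_zero]
      · right
        rw [ord_unif_zpow_mul P _ h0]
        rw [add_single_apply_self] at h1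
        omega⟩
  map_add' α β := by
    apply Subtype.ext
    show _ * ((α : ↥(repartitions K F)) + (β : ↥(repartitions K F)) : ↥(repartitions K F)).1 P = _
    rw [coe_add_repartitions, mul_add]
    rfl
  map_smul' c α := by
    apply Subtype.ext
    show _ * ((c • (α : ↥(repartitions K F)) : ↥(repartitions K F)) : Place K F → F) P = _
    rw [coe_smul_repartitions, RingHom.id_apply, coe_smul_valuationSubring]
    show _ = algebraMap K F c * (_ * _)
    ring

theorem coe_stepToRing (D : Divisor K F) (P : Place K F)
    (α : ↥(repartitionsOf (D + Finsupp.single P 1))) :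
    ((stepToRing D P α : P.toValuationSubring) : F) =
      ((unif P : P.toValuationSubring) : F) ^ (D P + 1) *
        ((α : ↥(repartitions K F)) : Place K F → F) P := rfl

/-- the residue map of the valuation ring, `K`-linear -/
def residueLin (P : Place K F) : P.toValuationSubring →ₗ[K] P.ResidueField :=
  (IsScalarTower.toAlgHom K P.toValuationSubring P.ResidueField).toLinearMap

theorem residueLin_apply (P : Place K F) (a : P.toValuationSubring) :
    residueLin P a = IsLocalRing.residue _ a := rfl

/-- the step map `A(D+P) → κ(P)` -/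
def stepMap (D : Divisor K F) (P : Place K F) :
    ↥(repartitionsOf (D + Finsupp.single P 1)) →ₗ[K] P.ResidueField :=
  (residueLin P).comp (stepToRing D P)

theorem ker_stepMap (D : Divisor K F) (P : Place K F) :
    LinearMap.ker (stepMap D P) =
      Submodule.comap (repartitionsOf (D + Finsupp.single P 1)).subtype (repartitionsOf D) := by
  ext α
  rw [LinearMap.mem_ker, stepMap, LinearMap.comp_apply, residueLin_apply,
    IsLocalRing.residue_eq_zero_iff, mem_maximalIdeal_iff_ord, coe_stepToRing,
    Submodule.mem_comap, Submodule.subtype_apply, mem_repartitionsOf_iff]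
  have hα := mem_repartitionsOf_iff.mp α.2
  constructor
  · intro h v
    by_cases hv : v = P
    · subst hv
      by_cases h0 : ((α : ↥(repartitions K F)) : Place K F → F) v = 0
      · exact Or.inl h0
      · right
        rw [ord_unif_zpow_mul v _ h0] at h
        rcases h with h | h
        · exact absurd h (mul_ne_zero (zpow_ne_zero _ (unif_ne_zero v)) h0)
        · omega
    · have := hα v
      rwa [add_single_apply_of_ne D hv] at this
  · intro h
    by_cases h0 : ((α : ↥(repartitions K F)) : Place K F → F) P = 0
    · left; rw [h0, mul_zero]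
    · right
      rw [ord_unif_zpow_mul P _ h0]
      have := (h P).resolve_left h0
      omega

theorem stepMap_surjective (D : Divisor K F) (P : Place K F) :
    Function.Surjective (stepMap D P) := by
  intro c
  obtain ⟨a, rfl⟩ := IsLocalRing.residue_surjective c
  have hmem : sgl P (((unif P : P.toValuationSubring) : F) ^ (-(D P + 1)) * (a : F)) ∈
      repartitionsOf (D + Finsupp.single P 1) := by
    rw [mem_repartitionsOf_iff]
    intro v
    by_cases hv : v = P
    · subst hv
      rw [sgl_apply_self]
      by_cases h0 : (a : F) = 0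
      · left; rw [h0, mul_zero]
      · right
        rw [ord_unif_zpow_mul v _ h0, add_single_apply_self]
        have := ((mem_valuationSubring_iff_ord v (a : F)).mp a.2).resolve_left h0
        omega
    · left
      exact sgl_apply_of_ne hv _
  refine ⟨⟨_, hmem⟩, ?_⟩
  rw [stepMap, LinearMap.comp_apply, residueLin_apply]
  congr 1
  apply Subtype.ext
  rw [coe_stepToRing]
  show _ * ((sgl P _ : ↥(repartitions K F)) : Place K F → F) P = _
  rw [sgl_apply_self, ← mul_assoc, ← zpow_add₀ (unif_ne_zero P)]
  simp

/-- the quotient map restricted to `A(D+P)` -/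
def stepQuot (D : Divisor K F) (P : Place K F) :
    ↥(repartitionsOf (D + Finsupp.single P 1)) →ₗ[K] (↥(repartitions K F) ⧸ repartitionsOf D) :=
  (repartitionsOf D).mkQ.domRestrict (repartitionsOf (D + Finsupp.single P 1))

theorem range_stepQuot (D : Divisor K F) (P : Place K F) :
    LinearMap.range (stepQuot D P) =
      relQuot (repartitionsOf D) (repartitionsOf (D + Finsupp.single P 1)) := by
  rw [stepQuot, LinearMap.range_domRestrict]

theorem ker_stepQuot (D : Divisor K F) (P : Place K F) :
    LinearMap.ker (stepQuot D P) = LinearMap.ker (stepMap D P) := by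
  rw [ker_stepMap]
  ext α
  rw [LinearMap.mem_ker, stepQuot, LinearMap.domRestrict_apply, Submodule.mkQ_apply,
    Submodule.Quotient.mk_eq_zero]
  rfl

set_option maxSynthPendingDepth 3 in
/-- **Step lemma**: `A(D+P)/A(D) ≃ κ(P)`. -/
theorem nonempty_stepEquiv (D : Divisor K F) (P : Place K F) :
    Nonempty (↥(relQuot (repartitionsOf D) (repartitionsOf (D + Finsupp.single P 1))) ≃ₗ[K]
      P.ResidueField) := by
  have e1 : (↥(repartitionsOf (D + Finsupp.single P 1)) ⧸ LinearMap.ker (stepQuot D P)) ≃ₗ[K]
      ↥(LinearMap.range (stepQuot D P)) := (stepQuot D P).quotKerEquivRange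
  have e2 : (↥(repartitionsOf (D + Finsupp.single P 1)) ⧸ LinearMap.ker (stepMap D P)) ≃ₗ[K]
      P.ResidueField := (stepMap D P).quotKerEquivOfSurjective (stepMap_surjective D P)
  rw [ker_stepQuot, range_stepQuot] at e1
  exact ⟨e1.symm.trans e2⟩

theorem finrank_relQuot_step (D : Divisor K F) (P : Place K F) :
    Module.finrank K (relQuot (repartitionsOf D) (repartitionsOf (D + Finsupp.single P 1))) =
      P.deg := by
  obtain ⟨e⟩ := nonempty_stepEquiv D P
  exact e.finrank_eq

theorem finite_relQuot_step (D : Divisor K F) (P : Place K F) [P.FiniteResidue] :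
    Module.Finite K (relQuot (repartitionsOf D) (repartitionsOf (D + Finsupp.single P 1))) := by
  obtain ⟨e⟩ := nonempty_stepEquiv D P
  have : Module.Finite K P.ResidueField := Place.FiniteResidue.finite
  exact Module.Finite.equiv e.symm

end Step

/-! ### `dim A(D)/A(D') = deg D - deg D'` -/

section Degree

variable {K F : Type*} [Field K] [Field F] [Algebra K F]

/-- an effective divisor given by natural multiplicities -/
def natDiv (E : Place K F →₀ ℕ) : Divisor K F := E.mapRange (Nat.cast : ℕ → ℤ) Nat.cast_zero

@[simp]
theorem natDiv_apply (E : Place K F →₀ ℕ) (v : Place K F) : natDiv E v = (E v : ℤ) := rfl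

theorem natDiv_add (E E' : Place K F →₀ ℕ) : natDiv (E + E') = natDiv E + natDiv E' := by
  ext v; simp

theorem natDiv_zero : natDiv (0 : Place K F →₀ ℕ) = 0 := by
  ext v; simp

theorem natDiv_single (P : Place K F) (b : ℕ) :
    natDiv (Finsupp.single P b) = Finsupp.single P (b : ℤ) := by
  ext v
  by_cases h : v = P
  · subst h; simp
  · simp [Finsupp.single_eq_of_ne h]

theorem le_add_natDiv (D : Divisor K F) (E : Place K F →₀ ℕ) : D ≤ D + natDiv E := by
  intro v
  simp

/-- the statement proved by induction -/
def StepProp (E : Place K F →₀ ℕ) : Prop :=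
  ∀ D' : Divisor K F,
    Module.Finite K (relQuot (repartitionsOf D') (repartitionsOf (D' + natDiv E))) ∧
      (Module.finrank K (relQuot (repartitionsOf D') (repartitionsOf (D' + natDiv E))) : ℤ) =
        Divisor.degree (natDiv E)

theorem stepProp_zero : StepProp (0 : Place K F →₀ ℕ) := by
  intro D'
  rw [natDiv_zero, add_zero, relQuot_self]
  refine ⟨inferInstance, ?_⟩
  simp

theorem stepProp_add {E E' : Place K F →₀ ℕ} (h : StepProp E) (h' : StepProp E') :
    StepProp (E + E') := by
  intro D'
  obtain ⟨hf1, hr1⟩ := h D'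
  obtain ⟨hf2, hr2⟩ := h' (D' + natDiv E)
  have hD : D' + natDiv (E + E') = D' + natDiv E + natDiv E' := by
    rw [natDiv_add, add_assoc]
  rw [hD]
  have h1 : repartitionsOf D' ≤ repartitionsOf (D' + natDiv E) :=
    repartitionsOf_mono (le_add_natDiv _ _)
  have h2 : repartitionsOf (D' + natDiv E) ≤ repartitionsOf (D' + natDiv E + natDiv E') :=
    repartitionsOf_mono (le_add_natDiv _ _)
  have hfin : Module.Finite K
      (relQuot (repartitionsOf D') (repartitionsOf (D' + natDiv E + natDiv E'))) :=
    finiteDimensional_relQuot_of_chain h1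
  refine ⟨hfin, ?_⟩
  rw [finrank_relQuot_chain h1 h2, Nat.cast_add, hr1, hr2, natDiv_add, map_add]

theorem stepProp_single [∀ v : Place K F, v.FiniteResidue] (P : Place K F) (b : ℕ) :
    StepProp (Finsupp.single P b) := by
  induction b with
  | zero =>
    rw [Finsupp.single_zero]
    exact stepProp_zero
  | succ b ih =>
    have : Finsupp.single P (b + 1) = Finsupp.single P b + Finsupp.single P 1 := by
      rw [Finsupp.single_add]
    rw [this]
    refine stepProp_add ih ?_
    intro D'
    have h1 : natDiv (Finsupp.single P 1) = Finsupp.single P 1 := by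
      rw [natDiv_single]; rfl
    rw [h1]
    refine ⟨finite_relQuot_step D' P, ?_⟩
    rw [finrank_relQuot_step, Divisor.degree_single, one_mul]

theorem stepProp_all [∀ v : Place K F, v.FiniteResidue] (E : Place K F →₀ ℕ) : StepProp E :=
  Finsupp.induction_linear E stepProp_zero (fun _ _ => stepProp_add) stepProp_single

/-- every `D' ≤ D` is `D' + natDiv E`. -/
theorem exists_natDiv_of_le {D' D : Divisor K F} (h : D' ≤ D) :
    ∃ E : Place K F →₀ ℕ, D = D' + natDiv E := by
  refine ⟨(D - D').mapRange Int.toNat Int.toNat_zero, ?_⟩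
  ext v
  have hv : D' v ≤ D v := h v
  simp only [Finsupp.add_apply, natDiv_apply, Finsupp.mapRange_apply, Finsupp.sub_apply]
  omega

variable [∀ v : Place K F, v.FiniteResidue]

/-- **(A2)** `A(D)/A(D')` is finite-dimensional for `D' ≤ D`. -/
theorem finite_relQuot_repartitionsOf {D' D : Divisor K F} (h : D' ≤ D) :
    Module.Finite K (relQuot (repartitionsOf D') (repartitionsOf D)) := by
  obtain ⟨E, rfl⟩ := exists_natDiv_of_le h
  exact (stepProp_all E D').1

/-- **(A2)** `dim_K A(D)/A(D') = deg D - deg D'` for `D' ≤ D`. -/
theorem finrank_relQuot_repartitionsOf {D' D : Divisor K F} (h : D' ≤ D) :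
    (Module.finrank K (relQuot (repartitionsOf D') (repartitionsOf D)) : ℤ) =
      Divisor.degree D - Divisor.degree D' := by
  obtain ⟨E, rfl⟩ := exists_natDiv_of_le h
  rw [(stepProp_all E D').2, map_add]
  ring

end Degree

/-! ### The main identities -/

section Main

variable {K F : Type*} [Field K] [Field F] [Algebra K F]

section FiniteResidue

variable [∀ v : Place K F, v.FiniteResidue]

/-- `L(D)/L(D')` is finite-dimensional for `D' ≤ D`. -/
theorem finite_relQuot_riemannRochSpace {D' D : Divisor K F} (h : D' ≤ D) :
    Module.Finite K (relQuot (riemannRochSpace D') (riemannRochSpace D)) := by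
  have := finite_relQuot_repartitionsOf h
  rw [riemannRochSpace_eq_comap, riemannRochSpace_eq_comap]
  exact finite_relQuot_comap _ (repartitionsOf_mono h)

/-- the kernel of `H1 D' → H1 D` is finite-dimensional. -/
theorem finite_ker_h1Map {D' D : Divisor K F} (h : D' ≤ D) :
    Module.Finite K (LinearMap.ker (h1Map h)) := by
  have := finite_relQuot_repartitionsOf h
  rw [ker_h1Map]
  exact finite_relQuot_of_le le_sup_left _

/-- **(A4) Key identity**: for `D' ≤ D`,
`dim ker(H1 D' → H1 D) + dim L(D)/L(D') = deg D - deg D'`. -/
theorem finrank_ker_h1Map_add {D' D : Divisor K F} (h : D' ≤ D) :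
    (Module.finrank K (LinearMap.ker (h1Map h)) : ℤ) +
      Module.finrank K (relQuot (riemannRochSpace D') (riemannRochSpace D)) =
        Divisor.degree D - Divisor.degree D' := by
  have := finite_relQuot_repartitionsOf h
  have h1 := finrank_relQuot_exact (diag (K := K) (F := F)) (repartitionsOf_mono h)
  have h2 : Module.finrank K (LinearMap.ker (h1Map h)) =
      Module.finrank K (relQuot (repartitionsOf D' ⊔ LinearMap.range (diag (K := K) (F := F)))
        (repartitionsOf D)) := by
    rw [ker_h1Map]
    exact finrank_relQuot_congr (by rw [principalRepartitions_eq_range]) _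
  rw [← finrank_relQuot_repartitionsOf h, h1, h2, riemannRochSpace_eq_comap,
    riemannRochSpace_eq_comap]
  push_cast
  ring

/-- **(A3)** if `L(D')` is finite-dimensional and `D' ≤ D` then so is `L(D)`. -/
theorem finite_riemannRochSpace_of_le {D' D : Divisor K F} (h : D' ≤ D)
    [Module.Finite K (riemannRochSpace D')] : Module.Finite K (riemannRochSpace D) := by
  have := finite_relQuot_riemannRochSpace h
  exact (finite_and_finrank_of_relQuot (riemannRochSpace_mono h)).1

/-- **(A3)** `l(D) = l(D') + dim L(D)/L(D')`. -/
theorem finrank_riemannRochSpace_eq_add {D' D : Divisor K F} (h : D' ≤ D)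
    [Module.Finite K (riemannRochSpace D')] :
    Module.finrank K (riemannRochSpace D) =
      Module.finrank K (riemannRochSpace D') +
        Module.finrank K (relQuot (riemannRochSpace D') (riemannRochSpace D)) := by
  have := finite_relQuot_riemannRochSpace h
  exact (finite_and_finrank_of_relQuot (riemannRochSpace_mono h)).2

/-- **(A4')** for `D' ≤ D` with `L(D')` finite-dimensional:
`dim ker(H1 D' → H1 D) + l(D) - l(D') = deg D - deg D'`. -/
theorem finrank_ker_h1Map_add_sub {D' D : Divisor K F} (h : D' ≤ D)
    [Module.Finite K (riemannRochSpace D')] :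
    (Module.finrank K (LinearMap.ker (h1Map h)) : ℤ) +
      (Module.finrank K (riemannRochSpace D) - Module.finrank K (riemannRochSpace D')) =
        Divisor.degree D - Divisor.degree D' := by
  rw [← finrank_ker_h1Map_add h, finrank_riemannRochSpace_eq_add h]
  push_cast
  ring

/-- **(A3)** `l(D) - l(D') ≤ deg D - deg D'` for `D' ≤ D`. -/
theorem finrank_riemannRochSpace_sub_le {D' D : Divisor K F} (h : D' ≤ D)
    [Module.Finite K (riemannRochSpace D')] :
    (Module.finrank K (riemannRochSpace D) : ℤ) - Module.finrank K (riemannRochSpace D') ≤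
      Divisor.degree D - Divisor.degree D' := by
  have := finrank_ker_h1Map_add_sub h
  have h0 : (0 : ℤ) ≤ Module.finrank K (LinearMap.ker (h1Map h)) := Int.natCast_nonneg _
  linarith

end FiniteResidue

/-- **(A3), packaged** in the shape consumed by the Riemann bound (R3). -/
theorem finite_and_finrank_le_of_le [∀ v : Place K F, v.FiniteResidue] (D D' : Divisor K F)
    (h : D' ≤ D) (hfin : Module.Finite K (riemannRochSpace D')) :
    Module.Finite K (riemannRochSpace D) ∧
      Module.finrank K (riemannRochSpace D) ≤
        Module.finrank K (riemannRochSpace D') + (Divisor.degree D - Divisor.degree D').toNat := by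
  refine ⟨finite_riemannRochSpace_of_le h, ?_⟩
  have h1 := finrank_riemannRochSpace_sub_le h
  omega

end Main

/-! ### Every repartition lies in some `A(D)` -/

section Cover

variable {K F : Type*} [Field K] [Field F] [Algebra K F]

/-- the pole set of a repartition -/
def poleSet (α : Place K F → F) : Set (Place K F) := {v | ¬v.adicValuation (α v) ≤ 1}

theorem poleSet_const_finite [HasPrincipalDivisors K F] (f : F) :
    (poleSet (fun _ : Place K F => f)).Finite := by
  rcases eq_or_ne f 0 with rfl | hf
  · have : poleSet (fun _ : Place K F => (0 : F)) = ∅ := by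
      ext v; simp [poleSet]
    rw [this]; exact Set.finite_empty
  · obtain ⟨D, hD, -⟩ := HasPrincipalDivisors.exists_divisor (K := K) f hf
    apply D.support.finite_toSet.subset
    intro v hv
    rw [Finset.mem_coe, Finsupp.mem_support_iff, hD v]
    have : v.ord f < 0 := v.not_adicValuation_le_one_iff.mp hv
    omega

theorem poleSet_finite [HasPrincipalDivisors K F] (α : ↥(repartitions K F)) :
    (poleSet (α : Place K F → F)).Finite := by
  obtain ⟨α, hα⟩ := α
  show (poleSet α).Finite
  induction hα using Algebra.adjoin_induction with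
  | mem x hx => exact hx
  | algebraMap f => exact poleSet_const_finite f
  | add x y _ _ hx hy =>
    apply (hx.union hy).subset
    intro v hv
    by_contra hne
    rw [Set.mem_union, not_or] at hne
    apply hv
    have h1 : v.adicValuation (x v) ≤ 1 := not_not.mp hne.1
    have h2 : v.adicValuation (y v) ≤ 1 := not_not.mp hne.2
    exact (Valuation.map_add _ _ _).trans (max_le h1 h2)
  | mul x y _ _ hx hy =>
    apply (hx.union hy).subset
    intro v hv
    by_contra hne
    rw [Set.mem_union, not_or] at hne
    apply hv
    have h1 : v.adicValuation (x v) ≤ 1 := not_not.mp hne.1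
    have h2 : v.adicValuation (y v) ≤ 1 := not_not.mp hne.2
    show v.adicValuation (x v * y v) ≤ 1
    rw [map_mul]
    exact mul_le_one' h1 h2

/-- **(A5)** every repartition lies in `A(D)` for some `D ≥ D'`. -/
theorem exists_ge_mem_repartitionsOf [HasPrincipalDivisors K F] (α : ↥(repartitions K F))
    (D' : Divisor K F) : ∃ D : Divisor K F, D' ≤ D ∧ α ∈ repartitionsOf D := by
  classical
  have hfin := poleSet_finite α
  set E : Divisor K F := Finsupp.onFinset hfin.toFinset
    (fun v => max 0 (-(v.ord ((α : Place K F → F) v)))) (by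
      intro v hv
      rw [Set.Finite.mem_toFinset]
      by_contra hne
      apply hv
      have h1 : v.adicValuation ((α : Place K F → F) v) ≤ 1 := not_not.mp hne
      rcases v.adicValuation_le_one_iff.mp h1 with h0 | h0
      · rw [h0, Place.ord_zero]; simp
      · omega) with hE
  refine ⟨D' ⊔ E, le_sup_left, ?_⟩
  rw [mem_repartitionsOf_iff]
  intro v
  right
  have h1 : E v ≤ (D' ⊔ E) v := by
    rw [Finsupp.sup_apply]; exact le_sup_right
  have h2 : E v = max 0 (-(v.ord ((α : Place K F → F) v))) := by
    rw [hE, Finsupp.onFinset_apply]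
  have h3 := le_max_right 0 (-(v.ord ((α : Place K F → F) v)))
  omega

/-- every class of `H1 D'` dies in `H1 D` for some `D ≥ D'`. -/
theorem exists_h1Map_eq_zero [HasPrincipalDivisors K F] {D' : Divisor K F} (x : H1 D') :
    ∃ (D : Divisor K F) (h : D' ≤ D), h1Map h x = 0 := by
  obtain ⟨α, rfl⟩ := Submodule.Quotient.mk_surjective _ x
  obtain ⟨D, hle, hα⟩ := exists_ge_mem_repartitionsOf α D'
  refine ⟨D, hle, ?_⟩
  rw [h1Map_mk, Submodule.Quotient.mk_eq_zero]
  exact Submodule.mem_sup_left hα

theorem h1Map_comp {D₁ D₂ D₃ : Divisor K F} (h12 : D₁ ≤ D₂) (h23 : D₂ ≤ D₃) (x : H1 D₁) :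
    h1Map h23 (h1Map h12 x) = h1Map (h12.trans h23) x := by
  obtain ⟨α, rfl⟩ := Submodule.Quotient.mk_surjective _ x
  rfl

theorem ker_h1Map_mono {D₁ D₂ D₃ : Divisor K F} (h12 : D₁ ≤ D₂) (h23 : D₂ ≤ D₃) :
    LinearMap.ker (h1Map h12) ≤ LinearMap.ker (h1Map (h12.trans h23)) := by
  intro x hx
  rw [LinearMap.mem_ker] at hx ⊢
  rw [← h1Map_comp h12 h23, hx, map_zero]

end Cover

end Fermat.Agent.RR.Adelic
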