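/-
RR (R2) bridge (helper6): the exports (A4), (A5) of `RR/Adelic.lean` in the exact shapes requested
by the (R4) assembly (board 1166), under helper45's `RRh45.FiniteResidues` class.
-/
import Fermat.Agent.RR.Adelic
import Fermat.Agent.RR_helper45.Finite

set_option autoImplicit false

noncomputable section

namespace Fermat.Agent.RR.Adelic

open AlgebraicCurve Fermat.Agent.RRh45

variable {K F : Type*} [Field K] [Field F] [Algebra K F] [FiniteResidues K F]

/-- helper45's class gives the prelude's per-place class. -/
theorem finiteResidue_of_finiteResidues (v : Place K F) : v.FiniteResidue :=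
  ⟨FiniteResidues.finite v⟩

/-- `h1Map` is literally `Submodule.mapQ _ _ LinearMap.id _`. -/
theorem h1Map_eq_mapQ {D' D : Divisor K F} (h : D' ≤ D) :
    h1Map h = Submodule.mapQ (repartitionsOf D' ⊔ principalRepartitions K F)
      (repartitionsOf D ⊔ principalRepartitions K F) LinearMap.id
      (by simpa using sup_le_sup_right (repartitionsOf_mono h) _) := rfl

/-- **(A4)** in the (R4) shape. -/
theorem A4 [HasPrincipalDivisors K F] [Nonempty (Place K F)] {D' D : Divisor K F} (h : D' ≤ D) :
    FiniteDimensional K (LinearMap.ker (h1Map h)) ∧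
      (Module.finrank K (LinearMap.ker (h1Map h)) : ℤ) +
        (Module.finrank K (riemannRochSpace D) - Module.finrank K (riemannRochSpace D')) =
          Divisor.degree D - Divisor.degree D' := by
  have : ∀ v : Place K F, v.FiniteResidue := finiteResidue_of_finiteResidues
  exact ⟨finite_ker_h1Map h, finrank_ker_h1Map_add_sub h⟩

omit [FiniteResidues K F] in
/-- **(A5)** in the (R4) shape. -/
theorem A5 [HasPrincipalDivisors K F] (r : ↥(repartitions K F)) :
    ∃ D : Divisor K F, r ∈ repartitionsOf D := by
  obtain ⟨D, -, hD⟩ := exists_ge_mem_repartitionsOf r 0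
  exact ⟨D, hD⟩

omit [FiniteResidues K F] in
/-- **(A5')** directed-union form: every class of `H1 D'` dies in some `H1 D`, `D ≥ D'`. -/
theorem A5' [HasPrincipalDivisors K F] {D' : Divisor K F} (x : H1 D') :
    ∃ (D : Divisor K F) (h : D' ≤ D), x ∈ LinearMap.ker (h1Map h) := by
  obtain ⟨D, h, hx⟩ := exists_h1Map_eq_zero x
  exact ⟨D, h, hx⟩

end Fermat.Agent.RR.Adelic
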