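/-
RR package (helper95): the ABSTRACT core of Riemann's theorem.

`Div` is an ordered additive commutative group ("divisors") with a degree `deg : Div →+ ℤ`, a subgroup
`Prin` of "principal divisors" and a dimension function `ell : Div → ℕ`.  From

* (E1) `ell (D + E) = ell D` for `E ∈ Prin`, and `deg E = 0` for `E ∈ Prin`,
* (E2) `D ≤ D' → ell D ≤ ell D' ≤ ell D + (deg D' - deg D)`,
* (E3) `0 < ell D → ∃ E ∈ Prin, 0 ≤ D + E`,
* (E5) there are `B`, `C` with `0 < deg B`, and `(l+1) * deg B ≤ ell (l • B + C)` for all `l`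
  (this is what a function `x` with `[F : K(x)] ≥ deg (x)_∞` provides),
* (E6) every divisor is `≤` some nonnegative divisor,

we derive the Riemann bound `deg D + 1 - ell D ≤ γ`, and Riemann's theorem: there is `g : ℤ`
(the genus) with `deg D + 1 - ell D ≤ g` always and `ell D = deg D + 1 - g` whenever `deg D ≥ c`.

Mathlib only.
-/
import Mathlib

set_option autoImplicit false

namespace Fermat.Agent.RR.Abstract

variable {Div : Type*} [AddCommGroup Div] [PartialOrder Div] [IsOrderedAddMonoid Div]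

/-- The data and axioms of an abstract "Riemann–Roch dimension function". -/
structure RiemannData (Div : Type*) [AddCommGroup Div] [PartialOrder Div]
    [IsOrderedAddMonoid Div] where
  /-- the degree -/
  deg : Div →+ ℤ
  /-- the principal divisors -/
  Prin : AddSubgroup Div
  /-- the dimension `l(D)` -/
  ell : Div → ℕ
  deg_prin : ∀ E ∈ Prin, deg E = 0
  ell_add_prin : ∀ D E, E ∈ Prin → ell (D + E) = ell D
  ell_mono : ∀ D D', D ≤ D' → ell D ≤ ell D'
  ell_le : ∀ D D', D ≤ D' → (ell D' : ℤ) ≤ ell D + (deg D' - deg D)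
  exists_prin : ∀ D, 0 < ell D → ∃ E ∈ Prin, 0 ≤ D + E
  exists_nonneg : ∀ D : Div, ∃ D', D ≤ D' ∧ 0 ≤ D'

namespace RiemannData

variable (R : RiemannData Div)

/-- the degree is monotone -/
theorem deg_mono {D D' : Div} (h : D ≤ D') : R.deg D ≤ R.deg D' := by
  have h1 := R.ell_le D D' h
  have h2 : (R.ell D : ℤ) ≤ R.ell D' := by exact_mod_cast R.ell_mono D D' h
  linarith

theorem deg_nonneg {D : Div} (h : 0 ≤ D) : 0 ≤ R.deg D := by
  simpa using R.deg_mono h

/-- `l(D) = 0` for `deg D < 0`. -/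
theorem ell_eq_zero_of_deg_neg {D : Div} (h : R.deg D < 0) : R.ell D = 0 := by
  by_contra h0
  obtain ⟨E, hE, hnn⟩ := R.exists_prin D (Nat.pos_of_ne_zero h0)
  have := R.deg_nonneg hnn
  rw [map_add, R.deg_prin E hE] at this
  linarith

/-- The defect `deg D + 1 - l(D)` is monotone. -/
theorem defect_mono {D D' : Div} (h : D ≤ D') :
    R.deg D + 1 - R.ell D ≤ R.deg D' + 1 - R.ell D' := by
  have := R.ell_le D D' h
  linarith

/-- The defect only depends on the class. -/
theorem defect_add_prin (D : Div) {E : Div} (hE : E ∈ R.Prin) :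
    R.deg (D + E) + 1 - R.ell (D + E) = R.deg D + 1 - R.ell D := by
  rw [map_add, R.deg_prin E hE, R.ell_add_prin D E hE, add_zero]

/-- **Riemann's inequality** from a "large" family `l • B + C`. -/
theorem riemann_bound (B C : Div) (hB : 0 < R.deg B) (hC : 0 ≤ C)
    (hBC : ∀ l : ℕ, ((l : ℤ) + 1) * R.deg B ≤ R.ell (l • B + C)) (D : Div) :
    R.deg D + 1 - R.ell D ≤ R.deg C - R.deg B + 1 := by
  -- step 2: the multiples of `B`
  have step2 : ∀ l : ℕ, (l : ℤ) * R.deg B - R.ell (l • B) ≤ R.deg C - R.deg B := by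
    intro l
    have hle : l • B ≤ l • B + C := le_add_of_nonneg_right hC
    have h1 := R.ell_le _ _ hle
    have h2 := hBC l
    rw [map_add, map_nsmul, nsmul_eq_mul] at h1
    linarith
  -- reduce to `0 ≤ D`
  obtain ⟨D', hDD', hD'⟩ := R.exists_nonneg D
  refine (R.defect_mono hDD').trans ?_
  -- choose `l` large
  obtain ⟨l, hl⟩ : ∃ l : ℕ, R.deg C - R.deg B + R.deg D' < (l : ℤ) * R.deg B := by
    obtain ⟨l, hl⟩ := exists_nat_gt ((R.deg C - R.deg B + R.deg D' : ℤ) : ℝ)
    refine ⟨l, ?_⟩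
    have h1 : ((R.deg C - R.deg B + R.deg D' : ℤ) : ℝ) < ((l : ℤ) : ℝ) := by exact_mod_cast hl
    have h2 : (R.deg C - R.deg B + R.deg D' : ℤ) < (l : ℤ) := by exact_mod_cast h1
    have h3 : (l : ℤ) * 1 ≤ (l : ℤ) * R.deg B :=
      mul_le_mul_of_nonneg_left (by omega) (by positivity)
    linarith
  -- `l(lB - D') > 0`
  have hpos : 0 < R.ell (l • B - D') := by
    have hle : l • B - D' ≤ l • B := sub_le_self _ hD'
    have h1 := R.ell_le _ _ hle
    have h2 := step2 l
    rw [map_sub, map_nsmul, nsmul_eq_mul] at h1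
    have : (0 : ℤ) < R.ell (l • B - D') := by linarith
    exact_mod_cast this
  obtain ⟨E, hE, hnn⟩ := R.exists_prin _ hpos
  -- `D' - E ≤ l B`
  have hnegE : -E ∈ R.Prin := R.Prin.neg_mem hE
  have hle : D' + -E ≤ l • B := by
    have : D' + -E + (l • B - D' + E) = l • B := by abel
    calc D' + -E ≤ D' + -E + (l • B - D' + E) := le_add_of_nonneg_right hnn
      _ = l • B := this
  have h1 := R.defect_mono hle
  rw [R.defect_add_prin D' hnegE] at h1
  have h2 := step2 l
  rw [map_nsmul, nsmul_eq_mul] at h1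
  linarith

/-- The set of defects is bounded above as soon as a large family exists. -/
theorem bddAbove_defect (B C : Div) (hB : 0 < R.deg B) (hC : 0 ≤ C)
    (hBC : ∀ l : ℕ, ((l : ℤ) + 1) * R.deg B ≤ R.ell (l • B + C)) :
    BddAbove (Set.range fun D : Div => R.deg D + 1 - (R.ell D : ℤ)) :=
  ⟨R.deg C - R.deg B + 1, by rintro _ ⟨D, rfl⟩; exact R.riemann_bound B C hB hC hBC D⟩

/-- **Riemann's theorem** (abstract form): if the defects `deg D + 1 - l(D)` are bounded above by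
`γ`, there is a genus `g` with `deg D + 1 - l(D) ≤ g` for all `D`, attained by some `D₀`, and
`l(D) = deg D + 1 - g` as soon as `deg D ≥ deg D₀ + g`. -/
theorem exists_genus (γ : ℤ) (hγ : ∀ D : Div, R.deg D + 1 - R.ell D ≤ γ) :
    ∃ g : ℤ, (∀ D : Div, R.deg D + 1 - R.ell D ≤ g) ∧ (∃ D₀ : Div, R.deg D₀ + 1 - R.ell D₀ = g) ∧
      ∃ c : ℤ, ∀ D : Div, c ≤ R.deg D → (R.ell D : ℤ) = R.deg D + 1 - g := by
  classical
  -- the supremum of the defects is attained
  have hbdd : BddAbove (Set.range fun D : Div => R.deg D + 1 - (R.ell D : ℤ)) :=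
    ⟨γ, by rintro _ ⟨D, rfl⟩; exact hγ D⟩
  have hne : (Set.range fun D : Div => R.deg D + 1 - (R.ell D : ℤ)).Nonempty := ⟨_, ⟨0, rfl⟩⟩
  obtain ⟨g, ⟨D₀, hD₀⟩, hmax⟩ := Int.exists_greatest_of_bdd
    (P := fun z => z ∈ Set.range fun D : Div => R.deg D + 1 - (R.ell D : ℤ))
    ⟨γ, fun z hz => by obtain ⟨D, rfl⟩ := hz; exact hγ D⟩ hne
  have hle : ∀ D : Div, R.deg D + 1 - R.ell D ≤ g := fun D => hmax _ ⟨D, rfl⟩
  refine ⟨g, hle, ⟨D₀, hD₀⟩, R.deg D₀ + g, fun D hD => ?_⟩
  have hD₀' : R.deg D₀ + 1 - R.ell D₀ = g := hD₀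
  -- `l(D - D₀) > 0`
  have hpos : 0 < R.ell (D - D₀) := by
    have h1 := hle (D - D₀)
    rw [map_sub] at h1
    have : (0 : ℤ) < R.ell (D - D₀) := by linarith
    exact_mod_cast this
  obtain ⟨E, hE, hnn⟩ := R.exists_prin _ hpos
  have hle' : D₀ ≤ D + E := by
    have : D₀ + (D - D₀ + E) = D + E := by abel
    calc D₀ ≤ D₀ + (D - D₀ + E) := le_add_of_nonneg_right hnn
      _ = D + E := this
  have h1 := R.defect_mono hle'
  rw [R.defect_add_prin D hE, hD₀'] at h1
  have h2 := hle D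
  linarith

/-- Riemann's theorem from a large family. -/
theorem exists_genus_of_family (B C : Div) (hB : 0 < R.deg B) (hC : 0 ≤ C)
    (hBC : ∀ l : ℕ, ((l : ℤ) + 1) * R.deg B ≤ R.ell (l • B + C)) :
    ∃ g : ℤ, (∀ D : Div, R.deg D + 1 - R.ell D ≤ g) ∧ (∃ D₀ : Div, R.deg D₀ + 1 - R.ell D₀ = g) ∧
      ∃ c : ℤ, ∀ D : Div, c ≤ R.deg D → (R.ell D : ℤ) = R.deg D + 1 - g :=
  R.exists_genus _ (R.riemann_bound B C hB hC hBC)

/-- The genus is nonnegative when `l(0) = 1`. -/
theorem genus_nonneg (h0 : R.ell 0 = 1) {g : ℤ} (hg : ∀ D : Div, R.deg D + 1 - R.ell D ≤ g) :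
    0 ≤ g := by
  have := hg 0
  rw [map_zero, h0] at this
  simpa using this

/-- `l(D) ≤ deg D + 1` for `D ≥ 0` when `l(0) = 1`. -/
theorem ell_le_deg_add_one (h0 : R.ell 0 = 1) {D : Div} (hD : 0 ≤ D) :
    (R.ell D : ℤ) ≤ R.deg D + 1 := by
  have := R.ell_le 0 D hD
  rw [map_zero, h0] at this
  push_cast at this
  linarith

end RiemannData

end Fermat.Agent.RR.Abstract
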