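/-
RR package (helper95): Riemann's inequality and Riemann's theorem for the prelude function-field
API (`AlgebraicCurve.Place / Divisor / riemannRochSpace`), obtained by instantiating the abstract
core `RR/RiemannAbstract.lean` with helper45's (R1) (`RR_helper45/Finite.lean`).

Main statements (namespace `Fermat.Agent.RR.Inst`; file renamed from RR/RiemannBound.lean, which is helper66's path):
* `riemannData K F : RiemannData (Divisor K F)` (deg, principal divisors, `l(D) = finrank L(D)`);
* `poleDivisor x`, `family_of_linearIndependent` : from `x` transcendental over `K` and `n` elements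
  of `F` linearly independent over `K⟮x⟯` with `deg (x)_∞ ≤ n`, the large family needed by (E5);
* `exists_genus_of_family`, `exists_genus_of_linearIndependent` : Riemann's theorem.
-/
import Fermat.Agent.RR.RiemannAbstract
import Fermat.Agent.RR_helper45.Finite

set_option autoImplicit false

noncomputable section

open AlgebraicCurve IntermediateField

namespace Fermat.Agent.RR.Inst

open Fermat.Agent.RRh45 Fermat.Agent.RR.Abstract

variable {K F : Type*} [Field K] [Field F] [Algebra K F]

/-! ### multiplication by `f` : `L(D + div f) ≃ L(D)` -/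

section MulEquiv

/-- `g ↦ g * f` maps `L(D + E)` to `L(D)` when `E = div f`. -/
theorem mul_mem_riemannRochSpace {D E : Divisor K F} {f : F} (hf : f ≠ 0)
    (hE : ∀ v : Place K F, E v = v.ord f) {g : F} (hg : g ∈ riemannRochSpace (D + E)) :
    g * f ∈ riemannRochSpace D := by
  rw [mem_riemannRochSpace_iff] at hg ⊢
  intro v
  rcases eq_or_ne g 0 with rfl | hg0
  · left; simp
  right
  rcases hg v with h | h
  · exact absurd h hg0
  rw [v.ord_mul hg0 hf]
  simp only [Finsupp.coe_add, Pi.add_apply, hE v] at h
  omega

/-- `g ↦ g * f⁻¹` maps `L(D)` to `L(D + E)` when `E = div f`. -/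
theorem mul_inv_mem_riemannRochSpace {D E : Divisor K F} {f : F} (hf : f ≠ 0)
    (hE : ∀ v : Place K F, E v = v.ord f) {g : F} (hg : g ∈ riemannRochSpace D) :
    g * f⁻¹ ∈ riemannRochSpace (D + E) := by
  rw [mem_riemannRochSpace_iff] at hg ⊢
  intro v
  rcases eq_or_ne g 0 with rfl | hg0
  · left; simp
  right
  rcases hg v with h | h
  · exact absurd h hg0
  rw [v.ord_mul hg0 (inv_ne_zero hf), v.ord_inv]
  simp only [Finsupp.coe_add, Pi.add_apply, hE v]
  omega

/-- The `K`-linear equivalence `L(D + div f) ≃ L(D)`. -/
def mulEquiv {D E : Divisor K F} {f : F} (hf : f ≠ 0) (hE : ∀ v : Place K F, E v = v.ord f) :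
    riemannRochSpace (D + E) ≃ₗ[K] riemannRochSpace D where
  toFun g := ⟨g.1 * f, mul_mem_riemannRochSpace hf hE g.2⟩
  invFun g := ⟨g.1 * f⁻¹, mul_inv_mem_riemannRochSpace hf hE g.2⟩
  map_add' g h := by
    apply Subtype.ext
    simp [add_mul]
  map_smul' c g := by
    apply Subtype.ext
    simp
  left_inv g := by
    apply Subtype.ext
    simp [mul_assoc, mul_inv_cancel₀ hf]
  right_inv g := by
    apply Subtype.ext
    simp [mul_assoc, inv_mul_cancel₀ hf]

theorem finrank_add_principal {D E : Divisor K F} (hE : E ∈ Divisor.principal (K := K) (F := F)) :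
    Module.finrank K (riemannRochSpace (D + E)) = Module.finrank K (riemannRochSpace D) := by
  obtain ⟨f, hf, hfE⟩ := hE
  exact (mulEquiv hf hfE).finrank_eq

end MulEquiv

/-! ### the instance of the abstract data -/

section Data

variable [FiniteResidues K F] [HasPrincipalDivisors K F] [Nonempty (Place K F)]

omit [FiniteResidues K F] [Nonempty (Place K F)] in
theorem degree_eq_zero_of_principal {E : Divisor K F}
    (hE : E ∈ Divisor.principal (K := K) (F := F)) : Divisor.degree E = 0 := by
  obtain ⟨f, hf, hfE⟩ := hE
  obtain ⟨E', hE', hdeg⟩ := HasPrincipalDivisors.exists_divisor (K := K) f hf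
  have : E = E' := by
    ext v
    rw [hfE v, hE' v]
  rw [this, hdeg]

variable (K F) in
/-- The Riemann data of a function field in the prelude API. -/
def riemannData : RiemannData (Divisor K F) where
  deg := Divisor.degree
  Prin := Divisor.principal
  ell D := Module.finrank K (riemannRochSpace D)
  deg_prin _ hE := degree_eq_zero_of_principal hE
  ell_add_prin _ _ hE := finrank_add_principal hE
  ell_mono _ _ h := finrank_mono h
  ell_le _ _ h := finrank_le_of_le h
  exists_prin D hD := by
    obtain ⟨f, hf0⟩ := Module.finrank_pos_iff_exists_ne_zero.mp hD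
    have hfF : (f : F) ≠ 0 := fun h => hf0 (Subtype.ext h)
    obtain ⟨E, hE, -⟩ := HasPrincipalDivisors.exists_divisor (K := K) (f : F) hfF
    refine ⟨E, ⟨f, hfF, hE⟩, ?_⟩
    rw [Finsupp.le_def]
    intro v
    have hf := f.2
    rw [mem_riemannRochSpace_iff] at hf
    rcases hf v with h | h
    · exact absurd h hfF
    · simp only [Finsupp.coe_zero, Pi.zero_apply, Finsupp.coe_add, Pi.add_apply, hE v]
      omega
  exists_nonneg D := ⟨D ⊔ 0, le_sup_left, le_sup_right⟩

@[simp] theorem riemannData_deg (D : Divisor K F) :
    (riemannData K F).deg D = Divisor.degree D := rfl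

@[simp] theorem riemannData_ell (D : Divisor K F) :
    (riemannData K F).ell D = Module.finrank K (riemannRochSpace D) := rfl

/-- **Riemann's theorem** from a large family `l • B + C`. -/
theorem exists_genus_of_family (B C : Divisor K F) (hB : 0 < Divisor.degree B) (hC : 0 ≤ C)
    (hBC : ∀ l : ℕ, ((l : ℤ) + 1) * Divisor.degree B ≤
      Module.finrank K (riemannRochSpace (l • B + C))) :
    ∃ g : ℤ, (∀ D : Divisor K F,
        Divisor.degree D + 1 - Module.finrank K (riemannRochSpace D) ≤ g) ∧
      (∃ D₀ : Divisor K F,
        Divisor.degree D₀ + 1 - Module.finrank K (riemannRochSpace D₀) = g) ∧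
      ∃ c : ℤ, ∀ D : Divisor K F, c ≤ Divisor.degree D →
        (Module.finrank K (riemannRochSpace D) : ℤ) = Divisor.degree D + 1 - g :=
  (riemannData K F).exists_genus_of_family B C hB hC hBC

end Data

end Fermat.Agent.RR.Inst
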