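/-
RR (R3)+(R4) (helper66): **Riemann's theorem, unconditionally**, for the prelude function-field API.

Combines `RR/RiemannBound.lean` (helper66: the independent family at the poles of a function,
`[F : K(x)] ≥ deg (x)_∞`) with `RR/RiemannInst.lean` (helper95: abstract Riemann theorem from a
large family `l • B + C`).

Hypotheses: residue fields of all places finite over `K`, principal divisors have degree `0`
(`HasPrincipalDivisors`), and at least one place.
-/
import Fermat.Agent.RR.RiemannBound
import Fermat.Agent.RR.RiemannInst

set_option autoImplicit false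

noncomputable section

open AlgebraicCurve

namespace Fermat.Agent.RR.Bound

open Fermat.Agent.RRh45

variable {K F : Type*} [Field K] [Field F] [Algebra K F]
variable [FiniteResidues K F] [HasPrincipalDivisors K F] [Nonempty (Place K F)]

variable (K F) in
/-- A large family: `B` of positive degree, `C ≥ 0`, `(l + 1) deg B ≤ l(l B + C)` for all `l`. -/
theorem exists_large_family :
    ∃ B C : Divisor K F, 0 < Divisor.degree B ∧ 0 ≤ C ∧
      ∀ l : ℕ, ((l : ℤ) + 1) * Divisor.degree B ≤
        Module.finrank K (riemannRochSpace (l • B + C)) := by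
  obtain ⟨v₀⟩ := ‹Nonempty (Place K F)›
  have : Nonempty (Place K F) := ⟨v₀⟩
  obtain ⟨x, hx, hn⟩ := exists_poleDeg_pos (K := K) v₀
  obtain ⟨C, hC, hcard⟩ := exists_divisor_card_le (K := K) hx
  refine ⟨poleDiv K x, C, ?_, hC, fun l => ?_⟩
  · rw [degree_poleDiv]; exact_mod_cast hn
  · rw [degree_poleDiv]
    exact_mod_cast hcard l

variable (K F) in
/-- **Riemann's theorem.** There is an integer `g` (the genus) with `deg D + 1 - l(D) ≤ g` for all
divisors `D`, with equality for some `D₀`, and `l(D) = deg D + 1 - g` for all `D` of large
degree. -/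
theorem riemann_theorem :
    ∃ g : ℤ, (∀ D : Divisor K F,
        Divisor.degree D + 1 - Module.finrank K (riemannRochSpace D) ≤ g) ∧
      (∃ D₀ : Divisor K F,
        Divisor.degree D₀ + 1 - Module.finrank K (riemannRochSpace D₀) = g) ∧
      ∃ c : ℤ, ∀ D : Divisor K F, c ≤ Divisor.degree D →
        (Module.finrank K (riemannRochSpace D) : ℤ) = Divisor.degree D + 1 - g := by
  obtain ⟨B, C, hB, hC, hBC⟩ := exists_large_family K F
  exact Fermat.Agent.RR.Inst.exists_genus_of_family B C hB hC hBC

end Fermat.Agent.RR.Bound
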