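import Fermat.Agent.RR.Main
import Fermat.Agent.RR.AdelicBridge
import Fermat.Agent.RR.RiemannTheorem

/-!
# Riemann's theorem for the prelude's `H1` / `genusFF`: unconditional form

Setting: `K`, `F` fields, `F` a `K`-algebra, with
`[RRh45.FiniteResidues K F] [HasPrincipalDivisors K F] [Nonempty (Place K F)]`
(char-free, no algebraic closedness).  Combining helper6's adelic identity (`Adelic.A4`, `A5`),
helper66's Riemann bound (`Bound.riemann_bound`) and the assembly `RR/Main.lean`:

* `finiteDimensional_H1 D` : `H1 D` is finite dimensional;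
* `ell_sub_h1 D` : `ℓ(D) - h¹(D) = deg D + ℓ(0) - genusFF K F`;
* `riemann_inequality D` : `deg D + ℓ(0) - genusFF K F ≤ ℓ(D)`;
* `exists_ell_eq` : there is `c` with `ℓ(D) = deg D + ℓ(0) - genusFF K F` and `H1 D = 0` for
  `deg D ≥ c`.
-/

set_option autoImplicit false

open AlgebraicCurve

namespace Fermat.Agent.RR

open Fermat.Agent.RRh45

variable {K F : Type*} [Field K] [Field F] [Algebra K F]
variable [FiniteResidues K F] [HasPrincipalDivisors K F] [Nonempty (Place K F)]

omit [FiniteResidues K F] [HasPrincipalDivisors K F] [Nonempty (Place K F)] in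
theorem adelic_h1Map_eq {D' D : Divisor K F} (h : D' ≤ D) : Adelic.h1Map h = h1Map h :=
  eq_h1Map h _ fun _ => rfl

variable (K F) in
/-- The inputs of the assembly hold unconditionally. -/
theorem inputs : Inputs K F where
  ker_finite h := by
    have := (Adelic.A4 (K := K) (F := F) h).1
    rwa [adelic_h1Map_eq] at this
  ker_finrank h := by
    have := (Adelic.A4 (K := K) (F := F) h).2
    rwa [adelic_h1Map_eq] at this
  exists_mem r := Adelic.A5 r
  bound := Bound.riemann_bound

/-- `H1 D` is finite dimensional. -/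
theorem finiteDimensional_H1 (D : Divisor K F) : FiniteDimensional K (H1 D) :=
  (inputs K F).finiteDimensional_H1 D

instance (D : Divisor K F) : FiniteDimensional K (H1 D) := finiteDimensional_H1 D

/-- **Riemann–Roch, first form**: `ℓ(D) - h¹(D) = deg D + ℓ(0) - g`, `g = genusFF K F`. -/
theorem ell_sub_h1 (D : Divisor K F) :
    (Module.finrank K (riemannRochSpace D) : ℤ) - Module.finrank K (H1 D) =
      Divisor.degree D + Module.finrank K (riemannRochSpace (0 : Divisor K F)) - genusFF K F :=
  (inputs K F).ell_sub_h1 D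

/-- **Riemann's inequality**: `ℓ(D) ≥ deg D + ℓ(0) - g`. -/
theorem riemann_inequality (D : Divisor K F) :
    Divisor.degree D + Module.finrank K (riemannRochSpace (0 : Divisor K F)) - genusFF K F ≤
      Module.finrank K (riemannRochSpace D) :=
  (inputs K F).riemann_inequality D

variable (K F) in
/-- **Riemann's theorem**: for `deg D ≥ c`, `ℓ(D) = deg D + ℓ(0) - g` and `H1 D = 0`. -/
theorem exists_ell_eq : ∃ c : ℤ, ∀ D : Divisor K F, c ≤ Divisor.degree D →
    (Module.finrank K (riemannRochSpace D) : ℤ) =
        Divisor.degree D + Module.finrank K (riemannRochSpace (0 : Divisor K F)) - genusFF K F ∧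
      Subsingleton (H1 D) :=
  (inputs K F).exists_ell_eq

/-- The Riemann genus `g` (`= max (deg D + 1 - ℓ(D))`) of `Bound.riemann_theorem` is
`genusFF K F + 1 - ℓ(0)`. -/
theorem genus_eq {g : ℤ}
    (hg : ∀ D : Divisor K F, Divisor.degree D + 1 - Module.finrank K (riemannRochSpace D) ≤ g)
    (hD₀ : ∃ D₀ : Divisor K F,
      Divisor.degree D₀ + 1 - Module.finrank K (riemannRochSpace D₀) = g) :
    g = (genusFF K F : ℤ) + 1 - Module.finrank K (riemannRochSpace (0 : Divisor K F)) := by
  obtain ⟨D₀, hD₀⟩ := hD₀
  obtain ⟨c, hc⟩ := exists_ell_eq K F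
  apply le_antisymm
  · have := riemann_inequality D₀
    linarith
  · -- a divisor of large degree
    obtain ⟨v₀⟩ := ‹Nonempty (Place K F)›
    have hpos : (0 : ℤ) < v₀.deg := by exact_mod_cast deg_pos v₀
    set D : Divisor K F := Finsupp.single v₀ (|c| + 1) with hD
    have hdeg : c ≤ Divisor.degree D := by
      rw [hD, Divisor.degree_single]
      have h1 : c ≤ |c| := le_abs_self c
      have h2 : (|c| + 1) * 1 ≤ (|c| + 1) * (v₀.deg : ℤ) :=
        mul_le_mul_of_nonneg_left (by omega) (by positivity)
      linarith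
    have h1 := (hc D hdeg).1
    have h2 := hg D
    linarith

end Fermat.Agent.RR
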