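import Fermat.Agent.RR.Riemann

/-!
# Riemann's theorem for the prelude's `H1` / `genusFF` (assembly)

Inputs (structure `Inputs K F`):
* the adelic key identity for `D' ≤ D`:
  `finrank ker (H1 D' → H1 D) + (ℓ(D) - ℓ(D')) = deg D - deg D'` (kernel finite dimensional);
* every repartition lies in some `𝔸(D)`;
* Riemann's bound `deg D - ℓ(D) ≤ γ`.

Outputs: `H1 D` is finite dimensional, `ℓ(D) - h¹(D) = deg D + ℓ(0) - genusFF`, Riemann's
inequality, and `h¹(D) = 0`, `ℓ(D) = deg D + ℓ(0) - genusFF` for `deg D ≥ c`.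
-/

set_option autoImplicit false
set_option linter.unusedSectionVars false

open AlgebraicCurve WithZero

namespace Fermat.Agent.RR

open Fermat.Agent.RRh45

variable {K F : Type*} [Field K] [Field F] [Algebra K F]

/-- `𝔸(D) + F`, the submodule by which `H1 D` is the quotient. -/
def adeleSum (D : Divisor K F) : Submodule K ↥(repartitions K F) :=
  repartitionsOf D ⊔ principalRepartitions K F

theorem adeleSum_mono {D' D : Divisor K F} (h : D' ≤ D) : adeleSum D' ≤ adeleSum D :=
  sup_le_sup_right (repartitionsOf_mono h) _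

theorem repartitionsOf_le_adeleSum (D : Divisor K F) : repartitionsOf D ≤ adeleSum D :=
  le_sup_left

/-- The canonical surjection `H1 D' → H1 D` for `D' ≤ D`. -/
noncomputable def h1Map {D' D : Divisor K F} (h : D' ≤ D) : H1 D' →ₗ[K] H1 D :=
  Submodule.mapQ (adeleSum D') (adeleSum D) LinearMap.id
    (by rw [Submodule.comap_id]; exact adeleSum_mono h)

@[simp] theorem h1Map_mk {D' D : Divisor K F} (h : D' ≤ D) (r : ↥(repartitions K F)) :
    h1Map h (Submodule.Quotient.mk r : H1 D') = (Submodule.Quotient.mk r : H1 D) := rfl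

theorem h1Map_surjective {D' D : Divisor K F} (h : D' ≤ D) : Function.Surjective (h1Map h) := by
  intro x
  obtain ⟨r, rfl⟩ := Submodule.Quotient.mk_surjective _ x
  exact ⟨Submodule.Quotient.mk r, rfl⟩

/-- Uniqueness: any linear map `H1 D' → H1 D` compatible with the quotient maps is `h1Map`. -/
theorem eq_h1Map {D' D : Divisor K F} (h : D' ≤ D) (φ : H1 D' →ₗ[K] H1 D)
    (hφ : ∀ r : ↥(repartitions K F),
      φ (Submodule.Quotient.mk r : H1 D') = (Submodule.Quotient.mk r : H1 D)) :
    φ = h1Map h := by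
  apply LinearMap.ext
  intro x
  obtain ⟨r, rfl⟩ := Submodule.Quotient.mk_surjective _ x
  rw [hφ, h1Map_mk]

/-- The three inputs of Riemann's theorem. -/
structure Inputs (K F : Type*) [Field K] [Field F] [Algebra K F] : Prop where
  ker_finite : ∀ {D' D : Divisor K F} (h : D' ≤ D),
    FiniteDimensional K (LinearMap.ker (h1Map h))
  ker_finrank : ∀ {D' D : Divisor K F} (h : D' ≤ D),
    (Module.finrank K (LinearMap.ker (h1Map h)) : ℤ) + ((ell D : ℤ) - ell D') =
      Divisor.degree D - Divisor.degree D'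
  exists_mem : ∀ r : ↥(repartitions K F), ∃ D : Divisor K F, r ∈ repartitionsOf D
  bound : ∃ γ : ℤ, ∀ D : Divisor K F, Divisor.degree D - ell D ≤ γ

namespace Inputs

variable (I : Inputs K F)
include I

/-- `φ(D) = deg D - ℓ(D)` is monotone (from the key identity). -/
theorem phi_mono {D' D : Divisor K F} (h : D' ≤ D) :
    Divisor.degree D' - ell D' ≤ Divisor.degree D - ell D := by
  have := I.ker_finrank h
  have h0 : (0 : ℤ) ≤ Module.finrank K (LinearMap.ker (h1Map h)) := Int.natCast_nonneg _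
  linarith

/-- A maximiser of `φ`. -/
theorem exists_max : ∃ D₀ : Divisor K F, ∀ D : Divisor K F,
    Divisor.degree D - ell D ≤ Divisor.degree D₀ - ell D₀ := by
  obtain ⟨γ, hγ⟩ := I.bound
  obtain ⟨M, ⟨D₀, hD₀⟩, hM⟩ := Int.exists_greatest_of_bdd
    (P := fun n : ℤ => ∃ D : Divisor K F, Divisor.degree D - ell D = n)
    ⟨γ, by rintro z ⟨D, rfl⟩; exact hγ D⟩ ⟨_, 0, rfl⟩
  exact ⟨D₀, fun D => by rw [hD₀]; exact hM _ ⟨D, rfl⟩⟩

/-- At a maximiser, `H1` vanishes. -/
theorem subsingleton_of_max {D₀ : Divisor K F}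
    (hmax : ∀ D : Divisor K F, Divisor.degree D - ell D ≤ Divisor.degree D₀ - ell D₀) :
    Subsingleton (H1 D₀) := by
  have hker : ∀ {D : Divisor K F} (h : D₀ ≤ D), LinearMap.ker (h1Map h) = ⊥ := by
    intro D h
    have hfin := I.ker_finite h
    have h1 := I.ker_finrank h
    have h2 := hmax D
    have h0 : Module.finrank K (LinearMap.ker (h1Map h)) = 0 := by
      have h3 : (0 : ℤ) ≤ Module.finrank K (LinearMap.ker (h1Map h)) := Int.natCast_nonneg _
      have : (Module.finrank K (LinearMap.ker (h1Map h)) : ℤ) = 0 := by linarith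
      exact_mod_cast this
    exact Submodule.finrank_eq_zero.mp h0
  refine ⟨fun x y => ?_⟩
  have key : ∀ x : H1 D₀, x = 0 := by
    intro x
    obtain ⟨r, rfl⟩ := Submodule.Quotient.mk_surjective _ x
    obtain ⟨E, hE⟩ := I.exists_mem r
    have h : D₀ ≤ D₀ ⊔ E := le_sup_left
    have hmem : (Submodule.Quotient.mk r : H1 D₀) ∈ LinearMap.ker (h1Map h) := by
      rw [LinearMap.mem_ker, h1Map_mk, Submodule.Quotient.mk_eq_zero]
      exact repartitionsOf_le_adeleSum _ (repartitionsOf_mono le_sup_right hE)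
    rw [hker h] at hmem
    exact (Submodule.mem_bot K).mp hmem
  rw [key x, key y]

/-- `H1 D` is finite dimensional and `h¹(D) = M - φ(D)` for the maximal value `M` of `φ`. -/
theorem finite_and_finrank_of_max {D₀ : Divisor K F}
    (hmax : ∀ D : Divisor K F, Divisor.degree D - ell D ≤ Divisor.degree D₀ - ell D₀)
    (D : Divisor K F) :
    FiniteDimensional K (H1 D) ∧
      (Module.finrank K (H1 D) : ℤ) =
        (Divisor.degree D₀ - ell D₀) - (Divisor.degree D - ell D) := by
  have hsub := I.subsingleton_of_max hmax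
  have h : D ≤ D ⊔ D₀ := le_sup_left
  have h' : D₀ ≤ D ⊔ D₀ := le_sup_right
  have hsub1 : Subsingleton (H1 (D ⊔ D₀)) := (h1Map_surjective h').subsingleton
  have hker : LinearMap.ker (h1Map h) = ⊤ := by
    rw [eq_top_iff]
    intro x _
    rw [LinearMap.mem_ker]
    exact Subsingleton.elim _ _
  have hfin := I.ker_finite h
  have h1 := I.ker_finrank h
  have hM : Divisor.degree (D ⊔ D₀) - ell (D ⊔ D₀) = Divisor.degree D₀ - ell D₀ :=
    le_antisymm (hmax _) (I.phi_mono h')
  rw [hker] at hfin h1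
  have e : (⊤ : Submodule K (H1 D)) ≃ₗ[K] H1 D := Submodule.topEquiv
  have hfinD : FiniteDimensional K (H1 D) := Module.Finite.equiv e
  refine ⟨hfinD, ?_⟩
  rw [finrank_top] at h1
  linarith

theorem finiteDimensional_H1 (D : Divisor K F) : FiniteDimensional K (H1 D) := by
  obtain ⟨D₀, hmax⟩ := I.exists_max
  exact (I.finite_and_finrank_of_max hmax D).1

/-- **Riemann–Roch, first form**: `ℓ(D) - h¹(D) = deg D + ℓ(0) - g`. -/
theorem ell_sub_h1 (D : Divisor K F) :
    (ell D : ℤ) - Module.finrank K (H1 D) =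
      Divisor.degree D + ell (0 : Divisor K F) - genusFF K F := by
  obtain ⟨D₀, hmax⟩ := I.exists_max
  have h1 := (I.finite_and_finrank_of_max hmax D).2
  have h2 := (I.finite_and_finrank_of_max hmax 0).2
  rw [map_zero] at h2
  have h3 : (genusFF K F : ℤ) = Module.finrank K (H1 (0 : Divisor K F)) := rfl
  rw [h3]
  linarith

/-- **Riemann's inequality**: `ℓ(D) ≥ deg D + ℓ(0) - g`. -/
theorem riemann_inequality (D : Divisor K F) :
    Divisor.degree D + ell (0 : Divisor K F) - genusFF K F ≤ ell D := by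
  have := I.ell_sub_h1 D
  have h0 : (0 : ℤ) ≤ Module.finrank K (H1 D) := Int.natCast_nonneg _
  linarith

/-- The maximal value of `deg D - ℓ(D)` is `g - ℓ(0)`. -/
theorem degree_sub_ell_le (D : Divisor K F) :
    Divisor.degree D - ell D ≤ (genusFF K F : ℤ) - ell (0 : Divisor K F) := by
  have := I.riemann_inequality D
  linarith

end Inputs

section General

variable [FiniteResidues K F] [HasPrincipalDivisors K F] [Nonempty (Place K F)]
variable (I : Inputs K F)
include I

/-- **Riemann's theorem**: for `deg D ≥ c`, `h¹(D) = 0` and `ℓ(D) = deg D + ℓ(0) - g`. -/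
theorem Inputs.exists_ell_eq : ∃ c : ℤ, ∀ D : Divisor K F, c ≤ Divisor.degree D →
    (ell D : ℤ) = Divisor.degree D + ell (0 : Divisor K F) - genusFF K F ∧
      Subsingleton (H1 D) := by
  obtain ⟨D₀, hmax⟩ := I.exists_max
  set M : ℤ := Divisor.degree D₀ - ell D₀ with hM
  refine ⟨Divisor.degree D₀ + M + 1, fun D hD => ?_⟩
  -- `ℓ(D - D₀) ≥ deg (D - D₀) - M > 0`
  have h1 := (I.finite_and_finrank_of_max hmax (D - D₀)).2
  have h0 : (0 : ℤ) ≤ Module.finrank K (H1 (D - D₀)) := Int.natCast_nonneg _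
  rw [map_sub] at h1
  have hpos : 0 < ell (D - D₀) := by
    have : (0 : ℤ) < ell (D - D₀) := by linarith
    exact_mod_cast this
  obtain ⟨z, E, hz0, hE, hE0, hle⟩ := exists_le_add_div (K := K) (F := F) hpos
  -- `φ(D) = φ(D + div z) = M`
  have h2 := I.phi_mono hle
  rw [ell_add_div hz0 hE, map_add, hE0, add_zero] at h2
  have h3 := hmax D
  have hphi : Divisor.degree D - ell D = M := le_antisymm h3 h2
  obtain ⟨hfin, h4⟩ := I.finite_and_finrank_of_max hmax D
  have h5 : Module.finrank K (H1 D) = 0 := by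
    have : (Module.finrank K (H1 D) : ℤ) = 0 := by rw [h4, hphi]; ring
    exact_mod_cast this
  have h6 := I.ell_sub_h1 D
  refine ⟨?_, ?_⟩
  · rw [h5] at h6
    push_cast at h6
    linarith
  · exact Module.finrank_zero_iff.mp h5

end General

end Fermat.Agent.RR
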