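import Fermat.Agent.RR_helper45.Finite

/-!
# Riemann's inequality from a lower bound along the multiples of one divisor (general setting)

Setting: `K`, `F` fields, `F` a `K`-algebra, places/divisors/`riemannRochSpace` of the prelude,
with finite residue fields, principal divisors of degree zero, and at least one place
(`RRh45.FiniteResidues`, `HasPrincipalDivisors`, `Nonempty (Place K F)`).

* `ell D = finrank K (riemannRochSpace D)`;
* `ell_add_div`: `ℓ(D + div z) = ℓ(D)`;
* `HasRiemannBound K F`: there is a divisor `B` of positive degree and a constant `γ` with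
  `ℓ(l • B) ≥ l * deg B - γ` for all `l`;
* `exists_degree_sub_ell_le`: then `deg D - ℓ(D) ≤ γ` for every divisor `D`.
-/

set_option autoImplicit false
set_option linter.unusedSectionVars false

open AlgebraicCurve WithZero

namespace Fermat.Agent.RR

open Fermat.Agent.RRh45

variable {K F : Type*} [Field K] [Field F] [Algebra K F]

/-- `ℓ(D)`, the dimension of `L(D)`. -/
noncomputable abbrev ell (D : Divisor K F) : ℕ := Module.finrank K (riemannRochSpace D)

/-- Multiplication by `z ≠ 0` as a `K`-linear automorphism of `F`. -/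
noncomputable def mulEquiv (K : Type*) {F : Type*} [Field K] [Field F] [Algebra K F] (z : F)
    (hz : z ≠ 0) : F ≃ₗ[K] F :=
  LinearEquiv.ofLinearMap (LinearMap.mulLeft K z) (LinearMap.mulLeft K z⁻¹)
    (by ext x; simp [mul_inv_cancel_left₀ hz]) (by ext x; simp [inv_mul_cancel_left₀ hz])

@[simp] theorem mulEquiv_apply (z : F) (hz : z ≠ 0) (x : F) : mulEquiv K z hz x = z * x := rfl

/-- `L(D + div z) = z⁻¹ L(D)`: membership form. -/
theorem mem_L_add_div_iff {D E : Divisor K F} {z : F} (hz : z ≠ 0)
    (hE : ∀ v : Place K F, E v = v.ord z) {f : F} :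
    f ∈ riemannRochSpace (D + E) ↔ z * f ∈ riemannRochSpace D := by
  have key : ∀ v : Place K F, v.adicValuation (z * f) = exp (-(E v)) * v.adicValuation f := by
    intro v
    rw [map_mul, v.adicValuation_eq_exp_neg_ord hz, hE v]
  constructor
  · intro hf v
    rw [key v]
    have := hf v
    rw [Finsupp.add_apply, exp_add] at this
    calc exp (-(E v)) * v.adicValuation f ≤ exp (-(E v)) * (exp (D v) * exp (E v)) := by gcongr
      _ = exp (D v) := by
          rw [mul_comm (exp (D v)), ← mul_assoc, ← exp_add]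
          simp
  · intro hf v
    have := hf v
    rw [key v] at this
    rw [Finsupp.add_apply, exp_add]
    calc v.adicValuation f = exp (E v) * (exp (-(E v)) * v.adicValuation f) := by
          rw [← mul_assoc, ← exp_add]
          simp
      _ ≤ exp (E v) * exp (D v) := by gcongr
      _ = exp (D v) * exp (E v) := mul_comm _ _

/-- `ℓ(D + div z) = ℓ(D)`. -/
theorem ell_add_div {D E : Divisor K F} {z : F} (hz : z ≠ 0)
    (hE : ∀ v : Place K F, E v = v.ord z) : ell (D + E) = ell D := by
  unfold ell
  have hmap : (riemannRochSpace (D + E)).map (mulEquiv K z hz : F →ₗ[K] F) = riemannRochSpace D := by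
    ext g
    rw [Submodule.mem_map]
    constructor
    · rintro ⟨f, hf, rfl⟩
      exact (mem_L_add_div_iff hz hE).mp hf
    · intro hg
      refine ⟨z⁻¹ * g, ?_, ?_⟩
      · rw [mem_L_add_div_iff hz hE, mul_inv_cancel_left₀ hz]
        exact hg
      · simp [mul_inv_cancel_left₀ hz]
  rw [← hmap]
  exact (LinearEquiv.finrank_map_eq (mulEquiv K z hz) _).symm

/-- The abstract input of Riemann's theorem. -/
def HasRiemannBound (K F : Type*) [Field K] [Field F] [Algebra K F] : Prop :=
  ∃ (B : Divisor K F) (γ : ℤ), 0 < Divisor.degree B ∧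
    ∀ l : ℕ, (l : ℤ) * Divisor.degree B - γ ≤ ell (l • B)

section General

variable [FiniteResidues K F] [HasPrincipalDivisors K F] [Nonempty (Place K F)]

/-- `ℓ(D') - ℓ(D) ≤ deg D' - deg D` for `D ≤ D'`. -/
theorem ell_sub_le {D D' : Divisor K F} (h : D ≤ D') :
    (ell D' : ℤ) - ell D ≤ Divisor.degree D' - Divisor.degree D := by
  have := finrank_le_of_le (K := K) (F := F) h
  unfold ell
  linarith

theorem ell_mono {D D' : Divisor K F} (h : D ≤ D') : ell D ≤ ell D' :=
  finrank_mono (K := K) (F := F) h

/-- `φ(D) = deg D - ℓ(D)` is monotone. -/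
theorem degree_sub_ell_mono {D D' : Divisor K F} (h : D ≤ D') :
    Divisor.degree D - ell D ≤ Divisor.degree D' - ell D' := by
  have := ell_sub_le (K := K) (F := F) h
  linarith

theorem ell_eq_zero_of_degree_neg {D : Divisor K F} (hD : Divisor.degree D < 0) : ell D = 0 := by
  unfold ell
  rw [riemannRochSpace_eq_bot_of_degree_neg hD]
  exact finrank_bot K F

/-- If `ℓ(D' - D) > 0` then `D ≤ D' + div z` for some `z ≠ 0`. -/
theorem exists_le_add_div {D D' : Divisor K F} (hpos : 0 < ell (D' - D)) :
    ∃ (z : F) (E : Divisor K F), z ≠ 0 ∧ (∀ v : Place K F, E v = v.ord z) ∧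
      Divisor.degree E = 0 ∧ D ≤ D' + E := by
  have hne : riemannRochSpace (D' - D : Divisor K F) ≠ ⊥ := by
    intro hbot
    unfold ell at hpos
    rw [hbot, finrank_bot] at hpos
    exact lt_irrefl _ hpos
  obtain ⟨z, hz, hz0⟩ := Submodule.exists_mem_ne_zero_of_ne_bot hne
  obtain ⟨E, hE, hE0⟩ := HasPrincipalDivisors.exists_divisor (K := K) z hz0
  refine ⟨z, E, hz0, hE, hE0, ?_⟩
  intro v
  rcases (mem_riemannRochSpace_iff.mp hz) v with h | h
  · exact absurd h hz0
  · rw [Finsupp.add_apply, hE v]
    rw [Finsupp.sub_apply] at h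
    linarith

/-- **Riemann's inequality**: `deg D - ℓ(D)` is bounded above. -/
theorem exists_degree_sub_ell_le (h : HasRiemannBound K F) :
    ∃ γ : ℤ, ∀ D : Divisor K F, Divisor.degree D - ell D ≤ γ := by
  obtain ⟨B, γ, hBpos, hbound⟩ := h
  refine ⟨γ, fun D => ?_⟩
  set Dp : Divisor K F := D ⊔ 0 with hDp
  have hDDp : D ≤ Dp := le_sup_left
  obtain ⟨l, hl⟩ : ∃ l : ℕ, γ + Divisor.degree Dp < (l : ℤ) * Divisor.degree B := by
    refine ⟨(γ + Divisor.degree Dp).toNat + 1, ?_⟩
    have h1 := Int.self_le_toNat (γ + Divisor.degree Dp)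
    have h2 : (1 : ℤ) ≤ Divisor.degree B := hBpos
    push_cast
    have h3 : (0 : ℤ) ≤ ((γ + Divisor.degree Dp).toNat : ℤ) := Int.natCast_nonneg _
    nlinarith
  have h1 : (l • B - Dp : Divisor K F) ≤ l • B := by
    rw [sub_le_self_iff]
    exact le_sup_right
  have h2 := ell_sub_le (K := K) (F := F) h1
  have h3 := hbound l
  rw [map_sub] at h2
  have hpos : 0 < ell (l • B - Dp : Divisor K F) := by
    have : (0 : ℤ) < ell (l • B - Dp : Divisor K F) := by linarith
    exact_mod_cast this
  obtain ⟨z, E, hz0, hE, hE0, hle⟩ := exists_le_add_div (K := K) (F := F) hpos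
  have hmono := degree_sub_ell_mono (K := K) (F := F) (hDDp.trans hle)
  rw [ell_add_div hz0 hE, map_add, hE0, add_zero, map_nsmul] at hmono
  simp only [nsmul_eq_mul] at hmono
  linarith

end General

end Fermat.Agent.RR
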