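/-
RR package (helper95): the "large family" (E5) of Riemann's inequality.

For `x : F` transcendental over `K` and `u : Fin n → F` linearly independent over `K⟮x⟯`, the
`(l+1) * n` functions `x ^ i * u j` (`i ≤ l`) are `K`-linearly independent and lie in
`L(l • (x)_∞ + C)`, `C := ∑ j, (u j)_∞`.  Hence `(l+1) * n ≤ l(l • (x)_∞ + C)`, and Riemann's theorem
follows as soon as `deg (x)_∞ ≤ n` (i.e. `deg (x)_∞ ≤ [F : K(x)]`).
-/
import Fermat.Agent.RR.RiemannInst

set_option autoImplicit false

noncomputable section

open AlgebraicCurve IntermediateField Polynomial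

namespace Fermat.Agent.RR.Inst

open Fermat.Agent.RRh45 Fermat.Agent.RR.Abstract

variable {K F : Type*} [Field K] [Field F] [Algebra K F]

/-! ### divisor of a function, pole divisor -/

section PoleDivisor

variable [HasPrincipalDivisors K F]

open Classical in
variable (K) in
/-- The divisor of a function (`0` for `x = 0`). -/
def divOf (x : F) : Divisor K F :=
  if hx : x = 0 then 0 else (HasPrincipalDivisors.exists_divisor (K := K) x hx).choose

theorem divOf_apply (x : F) (v : Place K F) : divOf K x v = v.ord x := by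
  unfold divOf
  split_ifs with hx
  · simp [hx]
  · exact (HasPrincipalDivisors.exists_divisor (K := K) x hx).choose_spec.1 v

theorem degree_divOf (x : F) : Divisor.degree (divOf K x) = 0 := by
  unfold divOf
  split_ifs with hx
  · simp
  · exact (HasPrincipalDivisors.exists_divisor (K := K) x hx).choose_spec.2

theorem divOf_mem_principal {x : F} (hx : x ≠ 0) :
    divOf K x ∈ Divisor.principal (K := K) (F := F) :=
  ⟨x, hx, fun v => divOf_apply x v⟩

variable (K) in
/-- The pole divisor `(x)_∞`. -/
def poleDivisor (x : F) : Divisor K F := (-divOf K x) ⊔ 0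

theorem poleDivisor_apply (x : F) (v : Place K F) :
    poleDivisor K x v = max (-v.ord x) 0 := by
  unfold poleDivisor
  rw [Finsupp.sup_apply, Finsupp.neg_apply, divOf_apply]
  rfl

theorem poleDivisor_nonneg (x : F) : 0 ≤ poleDivisor K x := le_sup_right

theorem neg_poleDivisor_le_ord (x : F) (v : Place K F) : -poleDivisor K x v ≤ v.ord x := by
  rw [poleDivisor_apply]
  have := le_max_left (-v.ord x) 0
  omega

theorem poleDivisor_apply_nonneg (x : F) (v : Place K F) : 0 ≤ poleDivisor K x v := by
  rw [poleDivisor_apply]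
  exact le_max_right _ _

end PoleDivisor

/-! ### the functions `x ^ i * u j` -/

section Family

variable [HasPrincipalDivisors K F]

omit [HasPrincipalDivisors K F] in
theorem ord_pow_nat (v : Place K F) (x : F) (i : ℕ) : v.ord (x ^ i) = i * v.ord x := by
  have := v.ord_zpow x (i : ℤ)
  simpa using this

/-- `x ^ i * u ∈ L(l • (x)_∞ + C)` when `i ≤ l` and `(u)_∞ ≤ C`. -/
theorem pow_mul_mem (x u : F) {C : Divisor K F} (hC : poleDivisor K u ≤ C) {i l : ℕ} (hil : i ≤ l) :
    x ^ i * u ∈ riemannRochSpace (l • poleDivisor K x + C) := by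
  rw [mem_riemannRochSpace_iff]
  intro v
  rcases eq_or_ne x 0 with rfl | hx
  · rcases Nat.eq_zero_or_pos i with rfl | hi
    · -- `i = 0`
      rcases eq_or_ne u 0 with rfl | hu
      · left; simp
      right
      have h1 := neg_poleDivisor_le_ord (K := K) u v
      have h2 := Finsupp.le_def.mp hC v
      have h3 : (0 : ℤ) ≤ (l • poleDivisor K (0 : F)) v := by
        rw [Finsupp.smul_apply]
        exact nsmul_nonneg (poleDivisor_apply_nonneg _ _) _
      simp only [pow_zero, one_mul, Finsupp.coe_add, Pi.add_apply]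
      omega
    · left
      simp [zero_pow hi.ne']
  rcases eq_or_ne u 0 with rfl | hu
  · left; simp
  right
  rw [v.ord_mul (pow_ne_zero i hx) hu, ord_pow_nat]
  have h1 := neg_poleDivisor_le_ord (K := K) u v
  have h2 := Finsupp.le_def.mp hC v
  have h3 := neg_poleDivisor_le_ord (K := K) x v
  have h4 := poleDivisor_apply_nonneg (K := K) x v
  simp only [Finsupp.coe_add, Pi.add_apply, Finsupp.smul_apply, nsmul_eq_mul]
  have h5 : (i : ℤ) * poleDivisor K x v ≤ (l : ℤ) * poleDivisor K x v :=
    mul_le_mul_of_nonneg_right (by exact_mod_cast hil) h4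
  have h6 : -((i : ℤ) * poleDivisor K x v) ≤ (i : ℤ) * v.ord x := by
    have : (i : ℤ) * (-poleDivisor K x v) ≤ (i : ℤ) * v.ord x :=
      mul_le_mul_of_nonneg_left h3 (by positivity)
    linarith
  linarith

omit [HasPrincipalDivisors K F] in
/-- `K`-linear independence of the `x ^ i * u j`. -/
theorem linearIndependent_pow_mul (x : F) (hx : Transcendental K x) {n : ℕ} (u : Fin n → F)
    (hu : LinearIndependent K⟮x⟯ u) (l : ℕ) :
    LinearIndependent K (fun ij : Fin (l + 1) × Fin n => x ^ (ij.1 : ℕ) * u ij.2) := by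
  rw [Fintype.linearIndependent_iff]
  intro c hc
  -- the polynomials `p j = ∑ i, c (i,j) X^i`
  set p : Fin n → K[X] := fun j => ∑ i : Fin (l + 1), Polynomial.C (c (i, j)) * X ^ (i : ℕ) with hp
  have hsum : ∑ j, (aeval (AdjoinSimple.gen K x) (p j) : K⟮x⟯) • u j = 0 := by
    rw [← hc, Fintype.sum_prod_type, Finset.sum_comm]
    refine Finset.sum_congr rfl fun j _ => ?_
    have hcoe : ((aeval (AdjoinSimple.gen K x) (p j) : K⟮x⟯) : F) = aeval x (p j) :=
      (Polynomial.aeval_algHom_apply (K⟮x⟯).val (AdjoinSimple.gen K x) (p j)).symm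
    rw [IntermediateField.smul_def, smul_eq_mul, hcoe, hp]
    simp only [map_sum, map_mul, aeval_C, map_pow, aeval_X, Finset.sum_mul]
    refine Finset.sum_congr rfl fun i _ => ?_
    rw [Algebra.smul_def, mul_assoc]
  have hzero := (Fintype.linearIndependent_iff.mp hu) _ hsum
  rintro ⟨i, j⟩
  have hj := hzero j
  have hcoe : ((aeval (AdjoinSimple.gen K x) (p j) : K⟮x⟯) : F) = aeval x (p j) :=
    (Polynomial.aeval_algHom_apply (K⟮x⟯).val (AdjoinSimple.gen K x) (p j)).symm
  have h0 : aeval x (p j) = 0 := by rw [← hcoe, hj]; rfl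
  have hpj : p j = 0 := by
    by_contra hne
    exact hx ⟨p j, hne, h0⟩
  have := congrArg (fun q => Polynomial.coeff q (i : ℕ)) hpj
  simp only [hp, Polynomial.finsetSum_coeff, Polynomial.coeff_C_mul, Polynomial.coeff_X_pow,
    Polynomial.coeff_zero] at this
  rw [Finset.sum_eq_single i] at this
  · simpa using this
  · intro b _ hb
    have : (i : ℕ) ≠ (b : ℕ) := fun h => hb (Fin.ext h.symm)
    simp [this]
  · intro h; exact absurd (Finset.mem_univ i) h

variable [FiniteResidues K F] [Nonempty (Place K F)]

/-- `(l+1) * n ≤ l(l • (x)_∞ + ∑ j, (u j)_∞)`. -/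
theorem family_of_linearIndependent (x : F) (hx : Transcendental K x) {n : ℕ} (u : Fin n → F)
    (hu : LinearIndependent K⟮x⟯ u) (l : ℕ) :
    (l + 1) * n ≤ Module.finrank K
      (riemannRochSpace (l • poleDivisor K x + ∑ j, poleDivisor K (u j))) := by
  set C : Divisor K F := ∑ j, poleDivisor K (u j) with hC
  have hCj : ∀ j, poleDivisor K (u j) ≤ C := fun j =>
    Finset.single_le_sum (f := fun j => poleDivisor K (u j)) (fun j _ => poleDivisor_nonneg (u j))
      (Finset.mem_univ j)
  let φ : Fin (l + 1) × Fin n → riemannRochSpace (l • poleDivisor K x + C) := fun ij =>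
    ⟨x ^ (ij.1 : ℕ) * u ij.2, pow_mul_mem x (u ij.2) (hCj ij.2) (Nat.lt_succ_iff.mp ij.1.2)⟩
  have hφ : LinearIndependent K φ := by
    have h := linearIndependent_pow_mul x hx u hu l
    exact LinearIndependent.of_comp (riemannRochSpace (l • poleDivisor K x + C)).subtype h
  have := hφ.fintype_card_le_finrank
  simpa [Fintype.card_prod] using this

/-- **Riemann's theorem** for the prelude API, from a transcendental `x` and `n ≥ deg (x)_∞`
elements linearly independent over `K⟮x⟯`. -/
theorem exists_genus_of_linearIndependent (x : F) (hx : Transcendental K x)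
    (hdeg : 0 < Divisor.degree (poleDivisor K x)) {n : ℕ} (u : Fin n → F)
    (hu : LinearIndependent K⟮x⟯ u) (hn : Divisor.degree (poleDivisor K x) ≤ n) :
    ∃ g : ℤ, (∀ D : Divisor K F,
        Divisor.degree D + 1 - Module.finrank K (riemannRochSpace D) ≤ g) ∧
      (∃ D₀ : Divisor K F,
        Divisor.degree D₀ + 1 - Module.finrank K (riemannRochSpace D₀) = g) ∧
      ∃ c : ℤ, ∀ D : Divisor K F, c ≤ Divisor.degree D →
        (Module.finrank K (riemannRochSpace D) : ℤ) = Divisor.degree D + 1 - g := by
  refine exists_genus_of_family (poleDivisor K x) (∑ j, poleDivisor K (u j)) hdeg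
    (Finset.sum_nonneg fun j _ => poleDivisor_nonneg (u j)) fun l => ?_
  have h1 := family_of_linearIndependent x hx u hu l
  have h2 : ((l : ℤ) + 1) * Divisor.degree (poleDivisor K x) ≤ ((l : ℤ) + 1) * n :=
    mul_le_mul_of_nonneg_left hn (by positivity)
  have h3 : (((l + 1) * n : ℕ) : ℤ) ≤ Module.finrank K
      (riemannRochSpace (l • poleDivisor K x + ∑ j, poleDivisor K (u j))) := by exact_mod_cast h1
  push_cast at h3
  linarith

end Family

end Fermat.Agent.RR.Inst
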